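import Fermat.Agent.S48x.HeckeFF.Pair
import Fermat.Agent.Gateway.Hecke.NormBaseChange

/-!
# P-S48 (Deligne-Serre), G1 layer (b2), slice (S4): descent of the norm formula (C1') (helper86)

Generic pair of rational model fields `F₀ ≤ F₁` (with `f(q) ↦ f(q^p)` mapping `F₀` into `F₁`) and
fields of constants `K ⊆ L` (`K = ℚ̄`, `L = ℂ`).  The coefficientwise embedding
`ι : F_K → F_L` commutes with the norm along `alphaG` (generic
`Gateway/Hecke/NormBaseChange.iotaF_normAlong`), hence

* `iotaG_normAlong`, `iotaG_heckeFunG`;
* `finiteAlong_alphaG_of_baseChange`, `finrankAlong_alphaG_baseChange` : the degree of `α` is the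
  same over `K` and over `L`;
* `normQExp_hecke_of_baseChange` : the norm formula (C1') with diamond twist over `L` (proved
  analytically over `ℂ`) implies the one over `K`.
-/

set_option autoImplicit false
set_option linter.unusedSectionVars false
set_option linter.style.haveILetI false

noncomputable section

open ModularCurve AlgebraicCurve IntermediateField

namespace Fermat.Agent.S48x.HeckeFF

open Fermat.Agent.Gateway.BaseChange Fermat.Agent.Gateway.Hecke.NormBC Fermat.Agent.Gateway

variable (K L : Type*) [Field K] [Field L] [Algebra K L] [Algebra ℚ K] [Algebra ℚ L]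
  [IsScalarTower ℚ K L]

/-- The coefficientwise embedding `F_K → F_L` of a rational model field. -/
def iotaG (F : IntermediateField ℚ (LaurentSeries ℚ)) :
    laurentBaseChange K F →+* laurentBaseChange L F :=
  (isBC_laurentBaseChange K L F).iotaF

@[simp] theorem coe_iotaG (F : IntermediateField ℚ (LaurentSeries ℚ))
    (x : laurentBaseChange K F) :
    ((iotaG K L F x : laurentBaseChange L F) : LaurentSeries L)
      = iota K L (x : LaurentSeries K) := rfl

theorem iotaG_injective (F : IntermediateField ℚ (LaurentSeries ℚ)) :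
    Function.Injective (iotaG K L F) := (iotaG K L F).injective

variable {F₀ F₁ : IntermediateField ℚ (LaurentSeries ℚ)}

theorem iotaG_alphaG (hle : F₀ ≤ F₁) (x : laurentBaseChange K F₀) :
    iotaG K L F₁ (alphaG K hle x) = alphaG L hle (iotaG K L F₀ x) := by
  apply Subtype.ext
  rw [coe_iotaG, coe_alphaG, coe_alphaG, coe_iotaG]

theorem iotaG_betaG (p : ℕ) [NeZero p] (hq : ∀ y ∈ F₀, qExpand ℚ p y ∈ F₁)
    (x : laurentBaseChange K F₀) :
    iotaG K L F₁ (betaG K p hq x) = betaG L p hq (iotaG K L F₀ x) := by
  apply Subtype.ext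
  rw [coe_iotaG, coe_betaG, coe_betaG, coe_iotaG]
  exact ModularCurve.coeffMap_qExpand (algebraMap K L) p _

/-- **The norm along `α` commutes with base change.** -/
theorem iotaG_normAlong (hle : F₀ ≤ F₁) (hfin : FiniteAlong K (alphaG K hle))
    (y : laurentBaseChange K F₁) :
    iotaG K L F₀ (Kummer.normAlong (alphaG K hle) y) =
      Kummer.normAlong (alphaG L hle) (iotaG K L F₁ y) :=
  iotaF_normAlong (laurentBaseChange_mono K hle) (laurentBaseChange_mono L hle)
    (isBC_laurentBaseChange K L F₀) (isBC_laurentBaseChange K L F₁) hfin y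

/-- The multiplicative Hecke operator on functions `u ↦ Norm_α (β u)` commutes with base change. -/
theorem iotaG_heckeFunG (p : ℕ) [NeZero p] (hle : F₀ ≤ F₁)
    (hq : ∀ y ∈ F₀, qExpand ℚ p y ∈ F₁) (hfin : FiniteAlong K (alphaG K hle))
    (u : laurentBaseChange K F₀) :
    iotaG K L F₀ (Kummer.normAlong (alphaG K hle) (betaG K p hq u)) =
      Kummer.normAlong (alphaG L hle) (betaG L p hq (iotaG K L F₀ u)) := by
  rw [iotaG_normAlong K L hle hfin, iotaG_betaG]

set_option maxHeartbeats 400000 in
/-- A basis of `E₁` over `E₀` is carried by `ι` to a basis of `F₁` over `F₀`: finiteness and the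
degree of the inclusion are invariant under base change (abstract form). -/
theorem finite_and_finrank_of_isBC {K L : Type*} [Field K] [Field L] [Algebra K L]
    {E0 E1 : IntermediateField K (LaurentSeries K)}
    {F0 F1 : IntermediateField L (LaurentSeries L)}
    (hE : E0 ≤ E1) (hF : F0 ≤ F1) (h0 : IsBC E0 F0) (h1 : IsBC E1 F1)
    (hfin : FiniteAlong K (IntermediateField.inclusion hE)) :
    FiniteAlong L (IntermediateField.inclusion hF) ∧
      finrankAlong L (IntermediateField.inclusion hF)
        = finrankAlong K (IntermediateField.inclusion hE) := by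
  classical
  letI algE : Algebra E0 E1 := (IntermediateField.inclusion hE).toRingHom.toAlgebra
  letI algF : Algebra F0 F1 := (IntermediateField.inclusion hF).toRingHom.toAlgebra
  haveI hfin' : Module.Finite E0 E1 := hfin
  haveI : Module.Free E0 E1 := Module.Free.of_divisionRing E0 E1
  set b := Module.finBasis E0 E1 with hb
  have hli : LinearIndependent F0 (fun j => h1.iotaF (b j)) :=
    linearIndependent_iotaF hE hF h0 h1 (fun j => b j) b.linearIndependent
  have hsp : ⊤ ≤ Submodule.span F0 (Set.range fun j => h1.iotaF (b j)) :=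
    (span_iotaF_eq_top hE hF h0 h1 (fun j => b j) b.span_eq).ge
  set b' := Module.Basis.mk hli hsp with hb'
  have hfinL : Module.Finite F0 F1 := Module.Finite.of_basis b'
  have hrank : Module.finrank F0 F1 = Module.finrank E0 E1 := by
    rw [Module.finrank_eq_card_basis b', Fintype.card_fin]
  exact ⟨hfinL, hrank⟩

theorem finite_and_finrank_alphaG_baseChange (hle : F₀ ≤ F₁)
    (hfin : FiniteAlong K (alphaG K hle)) :
    FiniteAlong L (alphaG L hle) ∧
      finrankAlong L (alphaG L hle) = finrankAlong K (alphaG K hle) :=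
  finite_and_finrank_of_isBC (laurentBaseChange_mono K hle) (laurentBaseChange_mono L hle)
    (isBC_laurentBaseChange K L F₀) (isBC_laurentBaseChange K L F₁) hfin

theorem finiteAlong_alphaG_of_baseChange (hle : F₀ ≤ F₁)
    (hfin : FiniteAlong K (alphaG K hle)) : FiniteAlong L (alphaG L hle) :=
  (finite_and_finrank_alphaG_baseChange K L hle hfin).1

theorem finrankAlong_alphaG_baseChange (hle : F₀ ≤ F₁)
    (hfin : FiniteAlong K (alphaG K hle)) :
    finrankAlong L (alphaG L hle) = finrankAlong K (alphaG K hle) :=
  (finite_and_finrank_alphaG_baseChange K L hle hfin).2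

/-- **(C1') over `L` implies (C1') over `K`.**  `δK`, `δL` are the (Laurent expansions of the)
diamond twists over `K` and `L`, compatible with the coefficientwise embedding; `ζ` a root of
unity of `K`. Only the instances of the formula over `L` at base-changed elements are used. -/
theorem normQExp_hecke_of_baseChange {p : ℕ} [NeZero p] (hle : F₀ ≤ F₁)
    (hq : ∀ y ∈ F₀, qExpand ℚ p y ∈ F₁) (hfin : FiniteAlong K (alphaG K hle)) (ζ : Kˣ)
    (δK : laurentBaseChange K F₀ → LaurentSeries K)
    (δL : laurentBaseChange L F₀ → LaurentSeries L)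
    (hδ : ∀ u : laurentBaseChange K F₀, iota K L (δK u) = δL (iotaG K L F₀ u))
    (h : ∀ u : laurentBaseChange K F₀,
      qExpand L p ((Kummer.normAlong (alphaG L hle) (betaG L p hq (iotaG K L F₀ u)) :
          laurentBaseChange L F₀) : LaurentSeries L)
        = qExpand L (p * p) ((iotaG K L F₀ u : laurentBaseChange L F₀) : LaurentSeries L) *
            ∏ b ∈ Finset.range p,
              Kummer.twist ((Units.map (algebraMap K L : K →* L) ζ) ^ b) (δL (iotaG K L F₀ u)))
    (u : laurentBaseChange K F₀) :
    qExpand K p ((Kummer.normAlong (alphaG K hle) (betaG K p hq u) : laurentBaseChange K F₀) :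
        LaurentSeries K)
      = qExpand K (p * p) (u : LaurentSeries K) *
          ∏ b ∈ Finset.range p, Kummer.twist (ζ ^ b) (δK u) := by
  apply iota_injective (K := K) (L := L)
  have h1 := h u
  rw [← iotaG_heckeFunG K L p hle hq hfin, coe_iotaG, coe_iotaG] at h1
  have e1 : ∀ (n : ℕ) [NeZero n] (x : LaurentSeries K),
      iota K L (qExpand K n x) = qExpand L n (iota K L x) :=
    fun n _ x => ModularCurve.coeffMap_qExpand (algebraMap K L) n x
  have e2 : ∀ (b : ℕ) (x : LaurentSeries K),
      iota K L (Kummer.twist (ζ ^ b) x) =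
        Kummer.twist ((Units.map (algebraMap K L : K →* L) ζ) ^ b) (iota K L x) := by
    intro b x
    rw [← map_pow]
    exact Kummer.coeffMap_twist (algebraMap K L) (ζ ^ b) x
  rw [e1, map_mul, e1, map_prod]
  simp only [e2, hδ]
  exact h1

/-- Variant with field valued diamond twists `δK : F₀_K → F₀_K`, `δL : F₀_L → F₀_L`. -/
theorem normQExp_hecke_of_baseChange' {p : ℕ} [NeZero p] (hle : F₀ ≤ F₁)
    (hq : ∀ y ∈ F₀, qExpand ℚ p y ∈ F₁) (hfin : FiniteAlong K (alphaG K hle)) (ζ : Kˣ)
    (δK : laurentBaseChange K F₀ → laurentBaseChange K F₀)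
    (δL : laurentBaseChange L F₀ → laurentBaseChange L F₀)
    (hδ : ∀ u : laurentBaseChange K F₀, iotaG K L F₀ (δK u) = δL (iotaG K L F₀ u))
    (h : ∀ v : laurentBaseChange L F₀,
      qExpand L p ((Kummer.normAlong (alphaG L hle) (betaG L p hq v) :
          laurentBaseChange L F₀) : LaurentSeries L)
        = qExpand L (p * p) (v : LaurentSeries L) *
            ∏ b ∈ Finset.range p,
              Kummer.twist ((Units.map (algebraMap K L : K →* L) ζ) ^ b)
                ((δL v : laurentBaseChange L F₀) : LaurentSeries L))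
    (u : laurentBaseChange K F₀) :
    qExpand K p ((Kummer.normAlong (alphaG K hle) (betaG K p hq u) : laurentBaseChange K F₀) :
        LaurentSeries K)
      = qExpand K (p * p) (u : LaurentSeries K) *
          ∏ b ∈ Finset.range p,
            Kummer.twist (ζ ^ b) ((δK u : laurentBaseChange K F₀) : LaurentSeries K) :=
  normQExp_hecke_of_baseChange K L hle hq hfin ζ
    (fun u => ((δK u : laurentBaseChange K F₀) : LaurentSeries K))
    (fun v => ((δL v : laurentBaseChange L F₀) : LaurentSeries L))
    (fun u => by rw [← coe_iotaG, hδ]) (fun u => h _) u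

end Fermat.Agent.S48x.HeckeFF
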