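import Fermat.Agent.S48x.HeckeFF.Pair
import Fermat.Agent.Gateway.HK1.Modular

/-!
# P-S48 (Deligne-Serre), G1 layer (b2), slice (S1): the level field `F₀(p)`

For a rational model field `F₀ ⊆ ℚ((q))` (instance: `gamma1Field M`) and a prime `p`:

* `levelField F₀ p ⊆ ℚ((q))`: generated by `F₀` and its image under `f(q) ↦ f(q^p)` (for
  `gamma1Field M`: the function field of `Γ₁(M) ∩ Γ₀(p)`); `alphaL`, `betaL` are the two degeneracy
  maps `F₀_L → F₀(p)_L` (`alphaG`, `betaG` of `Pair.lean`);
* `eq_top_of_alphaL_betaL_mem`, `ringHom_ext_levelField`: `F₀(p)_L` is generated by the images of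
  `alphaL` and `betaL`;
* `jG L hj : F₀_L` (for `hj : jq ∈ F₀`), transcendental;
* `finiteDimensional_levelField`: if `F₀_L` is finite over `L(j)` then so is `F₀(p)_L`
  (`L` algebraically closed of characteristic zero; modular equation of level `p`);
* `ffInputs_levelField : FFInputs (betaL L F₀ p) (alphaL L F₀ p)`: ALL inputs of the Hecke
  correspondence `T_p = α_* β^*` on `Pic⁰ (F₀_L)` from the single hypothesis `[F₀_L : L(j)] < ∞`.
-/

set_option autoImplicit false
set_option linter.unusedSectionVars false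
set_option linter.style.haveILetI false

noncomputable section

open ModularCurve AlgebraicCurve IntermediateField HahnSeries Polynomial

namespace Fermat.Agent.S48x.HeckeFF

open Fermat.Agent.Gateway.Hecke Fermat.Agent.Gateway.HK1 Fermat.Agent.S28
open Fermat.Agent.S28.Conjugates

/-! ### Two general lemmas on integrality over simple extensions -/

section Integral

variable {K F F' : Type*} [Field K] [Field F] [Field F'] [Algebra K F] [Algebra K F']

/-- Integrality over `K(x)` is transported by `K`-algebra homomorphisms. -/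
theorem isIntegral_adjoin_simple_map (φ : F →ₐ[K] F') {x s : F} (h : IsIntegral K⟮x⟯ s) :
    IsIntegral K⟮φ x⟯ (φ s) := by
  have hmem : ∀ e : K⟮x⟯, (φ.toRingHom.comp (algebraMap K⟮x⟯ F)) e ∈ K⟮φ x⟯ := by
    intro e
    have h1 : φ (e : F) ∈ (K⟮x⟯).map φ := ⟨e, e.2, rfl⟩
    rwa [IntermediateField.adjoin_map, Set.image_singleton] at h1
  let ψ : K⟮x⟯ →+* K⟮φ x⟯ := (φ.toRingHom.comp (algebraMap K⟮x⟯ F)).codRestrict K⟮φ x⟯ hmem
  exact IsIntegral.map_of_comp_eq ψ φ.toRingHom (by ext e; rfl) h

/-- Transitivity of integrality over simple extensions. -/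
theorem isIntegral_adjoin_simple_trans {x y s : F} (hy : IsIntegral K⟮x⟯ y)
    (hs : IsIntegral K⟮y⟯ s) : IsIntegral K⟮x⟯ s := by
  let A : IntermediateField K⟮x⟯ F := (K⟮x⟯)⟮y⟯
  haveI : FiniteDimensional K⟮x⟯ A := IntermediateField.adjoin.finiteDimensional hy
  haveI : Algebra.IsIntegral K⟮x⟯ A := Algebra.IsIntegral.of_finite _ _
  have hle : K⟮y⟯ ≤ A.restrictScalars K := by
    rw [IntermediateField.adjoin_simple_le_iff]
    exact IntermediateField.mem_adjoin_simple_self _ y
  have hmem : ∀ e : K⟮y⟯, (algebraMap K⟮y⟯ F) e ∈ A := fun e => hle e.2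
  let ψ : K⟮y⟯ →+* A := (algebraMap K⟮y⟯ F).codRestrict A hmem
  have hs' : IsIntegral A s := by
    have h1 := IsIntegral.map_of_comp_eq (R := K⟮y⟯) (S := F) (T := A) (U := F) ψ (RingHom.id F)
      (by ext e; rfl) hs
    simpa using h1
  exact isIntegral_trans s hs'

/-- If `F` is finite over `K(j)`, `F'` is generated by the images of `α β : F → F'` and `β j` is
integral over `K(α j)`, then `F'` is finite over `K(α j)`. -/
theorem finiteDimensional_of_generated (α β : F →ₐ[K] F') (j : F)
    [hfin : FiniteDimensional K⟮j⟯ F] (hβj : IsIntegral K⟮α j⟯ (β j))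
    (hgen : ∀ E : IntermediateField K F', (∀ x, α x ∈ E) → (∀ x, β x ∈ E) → E = ⊤) :
    FiniteDimensional K⟮α j⟯ F' := by
  classical
  obtain ⟨s, hs⟩ := hfin.fg_top
  have hint₀ : ∀ x : F, IsIntegral K⟮j⟯ x := fun x => IsIntegral.of_finite _ x
  -- the finite generating set
  let S : Finset F' := s.image α ∪ {β j} ∪ s.image β
  have hint : ∀ y ∈ (S : Set F'), IsIntegral K⟮α j⟯ y := by
    intro y hy
    rw [Finset.mem_coe, Finset.mem_union, Finset.mem_union, Finset.mem_image, Finset.mem_singleton,
      Finset.mem_image] at hy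
    rcases hy with (⟨x, -, rfl⟩ | rfl) | ⟨x, -, rfl⟩
    · exact isIntegral_adjoin_simple_map α (hint₀ x)
    · exact hβj
    · exact isIntegral_adjoin_simple_trans hβj (isIntegral_adjoin_simple_map β (hint₀ x))
  haveI : Finite (S : Set F') := Finset.finite_toSet S
  have hfd := IntermediateField.finiteDimensional_adjoin (K := K⟮α j⟯) hint
  -- the generating set generates
  let E : IntermediateField K F' :=
    (IntermediateField.adjoin K⟮α j⟯ (S : Set F')).restrictScalars K
  have hSE : ∀ y ∈ S, y ∈ E := fun y hy =>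
    IntermediateField.subset_adjoin K⟮α j⟯ (S : Set F') (Finset.mem_coe.mpr hy)
  have hαj : α j ∈ E :=
    (IntermediateField.adjoin K⟮α j⟯ (S : Set F')).algebraMap_mem
      (⟨α j, IntermediateField.mem_adjoin_simple_self K _⟩ : K⟮α j⟯)
  have hβj' : β j ∈ E := hSE _ (by
    rw [Finset.mem_union, Finset.mem_union, Finset.mem_singleton]
    exact Or.inl (Or.inr rfl))
  -- images of `K(j)` under `α`, `β`
  have hconst : ∀ φ : F →ₐ[K] F', φ j ∈ E → ∀ r : K⟮j⟯, φ (r : F) ∈ E := by
    intro φ hφ r
    have h1 : φ (r : F) ∈ (K⟮j⟯).map φ := ⟨r, r.2, rfl⟩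
    rw [IntermediateField.adjoin_map, Set.image_singleton] at h1
    have hle : K⟮φ j⟯ ≤ E := by
      rw [IntermediateField.adjoin_simple_le_iff]
      exact hφ
    exact hle h1
  have hall : ∀ φ : F →ₐ[K] F', φ j ∈ E → (∀ x ∈ s, φ x ∈ E) → ∀ x, φ x ∈ E := by
    intro φ hφ hφs x
    have hx : x ∈ Submodule.span K⟮j⟯ (s : Set F) := hs ▸ Submodule.mem_top
    induction hx using Submodule.span_induction with
    | mem z hz => exact hφs z hz
    | zero => rw [map_zero]; exact zero_mem _
    | add a b _ _ ha hb => rw [map_add]; exact add_mem ha hb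
    | smul r a _ ha =>
      have h1 : r • a = (r : F) * a := by
        rw [Algebra.smul_def]; rfl
      rw [h1, map_mul]
      exact mul_mem (hconst φ hφ r) ha
  have htop : E = ⊤ := by
    refine hgen E ?_ ?_
    · refine hall α hαj fun x hx => hSE _ ?_
      rw [Finset.mem_union, Finset.mem_union]
      exact Or.inl (Or.inl (Finset.mem_image_of_mem _ hx))
    · refine hall β hβj' fun x hx => hSE _ ?_
      rw [Finset.mem_union]
      exact Or.inr (Finset.mem_image_of_mem _ hx)
  have htop' : IntermediateField.adjoin K⟮α j⟯ (S : Set F') = ⊤ := by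
    rw [eq_top_iff]
    intro y _
    have : y ∈ E := htop ▸ IntermediateField.mem_top
    exact this
  rw [htop'] at hfd
  exact Module.Finite.equiv (IntermediateField.topEquiv (F := K⟮α j⟯) (E := F')).toLinearEquiv

end Integral

/-! ### `q ↦ q^p` as an algebra homomorphism; the level field -/

section Defs

/-- `f(q) ↦ f(q^p)` as a `K`-algebra endomorphism of `K((q))`. -/
def qExpandAlg (K : Type*) [Field K] (p : ℕ) [NeZero p] : LaurentSeries K →ₐ[K] LaurentSeries K :=
  { qExpand K p with
    commutes' := fun a => by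
      show qExpand K p (algebraMap K (LaurentSeries K) a) = algebraMap K (LaurentSeries K) a
      rw [algebraMap_laurentSeries_eq_single, qExpand_single, mul_zero] }

@[simp] theorem qExpandAlg_apply (K : Type*) [Field K] (p : ℕ) [NeZero p] (x : LaurentSeries K) :
    qExpandAlg K p x = qExpand K p x := rfl

variable (F₀ : IntermediateField ℚ (LaurentSeries ℚ)) (p : ℕ) [NeZero p]

/-- The field generated by `F₀` and its image under `f(q) ↦ f(q^p)`. -/
def levelField : IntermediateField ℚ (LaurentSeries ℚ) :=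
  IntermediateField.adjoin ℚ ((F₀ : Set (LaurentSeries ℚ)) ∪ (qExpand ℚ p '' F₀))

theorem le_levelField : F₀ ≤ levelField F₀ p := fun _ hx =>
  IntermediateField.subset_adjoin ℚ _ (Or.inl hx)

theorem qExpand_mem_levelField : ∀ y ∈ F₀, qExpand ℚ p y ∈ levelField F₀ p := fun y hy =>
  IntermediateField.subset_adjoin ℚ _ (Or.inr ⟨y, hy, rfl⟩)

variable (L : Type*) [Field L] [Algebra ℚ L]

/-- the inclusion `F₀_L → F₀(p)_L` -/
def alphaL : laurentBaseChange L F₀ →ₐ[L] laurentBaseChange L (levelField F₀ p) :=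
  alphaG L (le_levelField F₀ p)

/-- the degeneracy map `f(q) ↦ f(q^p) : F₀_L → F₀(p)_L` -/
def betaL : laurentBaseChange L F₀ →ₐ[L] laurentBaseChange L (levelField F₀ p) :=
  betaG L p (qExpand_mem_levelField F₀ p)

@[simp] theorem coe_alphaL (x : laurentBaseChange L F₀) :
    ((alphaL F₀ p L x : laurentBaseChange L (levelField F₀ p)) : LaurentSeries L) = x :=
  coe_alphaG L _ x

@[simp] theorem coe_betaL (x : laurentBaseChange L F₀) :
    ((betaL F₀ p L x : laurentBaseChange L (levelField F₀ p)) : LaurentSeries L)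
      = qExpand L p (x : LaurentSeries L) := rfl

/-- `F₀(p)_L` is generated by the images of `alphaL` and `betaL`. -/
theorem eq_top_of_alphaL_betaL_mem
    (E : IntermediateField L (laurentBaseChange L (levelField F₀ p)))
    (hα : ∀ x, alphaL F₀ p L x ∈ E) (hβ : ∀ x, betaL F₀ p L x ∈ E) : E = ⊤ := by
  rw [eq_top_iff]
  rintro y -
  let T : IntermediateField L (LaurentSeries L) :=
    E.map (laurentBaseChange L (levelField F₀ p)).val
  have hT : ∀ x ∈ levelField F₀ p, coeffEmb L x ∈ T := by
    intro x hx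
    rw [levelField] at hx
    induction hx using IntermediateField.adjoin_induction with
    | mem x hx =>
      rcases hx with hx | ⟨z, hz, rfl⟩
      · exact ⟨alphaL F₀ p L ⟨coeffEmb L x, coeffEmb_mem_laurentBaseChange L hx⟩, hα _, rfl⟩
      · refine ⟨betaL F₀ p L ⟨coeffEmb L z, coeffEmb_mem_laurentBaseChange L hz⟩, hβ _, ?_⟩
        exact (coeffMap_qExpand (algebraMap ℚ L) p z).symm
    | algebraMap c =>
      rw [Fermat.Agent.Gateway.Hecke.coeffEmb_algebraMap]
      exact T.algebraMap_mem _
    | add x y _ _ hx hy =>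
      rw [map_add]
      exact add_mem hx hy
    | inv x _ hx =>
      rw [map_inv₀]
      exact inv_mem hx
    | mul x y _ _ hx hy =>
      rw [map_mul]
      exact mul_mem hx hy
  have hle : laurentBaseChange L (levelField F₀ p) ≤ T := by
    rw [laurentBaseChange, IntermediateField.adjoin_le_iff]
    rintro _ ⟨x, hx, rfl⟩
    exact hT x hx
  obtain ⟨z, hz, hzy⟩ := hle y.2
  have hzy' : z = y := Subtype.ext hzy
  exact hzy' ▸ hz

/-- Two ring homomorphisms out of `F₀(p)_L` into a field which agree on the images of `alphaL`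
and `betaL` are equal. -/
theorem ringHom_ext_levelField {E : Type*} [Field E]
    (φ ψ : laurentBaseChange L (levelField F₀ p) →+* E)
    (hα : ∀ x, φ (alphaL F₀ p L x) = ψ (alphaL F₀ p L x))
    (hβ : ∀ x, φ (betaL F₀ p L x) = ψ (betaL F₀ p L x)) : φ = ψ := by
  let E' : IntermediateField L (laurentBaseChange L (levelField F₀ p)) :=
    { RingHom.eqLocusField φ ψ with
      algebraMap_mem' := fun c => by
        have h1 : algebraMap L (laurentBaseChange L (levelField F₀ p)) c =
            alphaL F₀ p L (algebraMap L (laurentBaseChange L F₀) c) :=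
          ((alphaL F₀ p L).commutes c).symm
        show φ _ = ψ _
        rw [h1, hα] }
  have hE : ∀ x, x ∈ E' ↔ φ x = ψ x := fun _ => Iff.rfl
  have htop : E' = ⊤ :=
    eq_top_of_alphaL_betaL_mem F₀ p L E' (fun x => (hE _).mpr (hα x)) (fun x => (hE _).mpr (hβ x))
  exact RingHom.ext fun x => (hE x).mp (htop ▸ IntermediateField.mem_top)

end Defs

/-! ### The `j`-invariant -/

section JInv

variable {F₀ : IntermediateField ℚ (LaurentSeries ℚ)} (L : Type) [Field L] [Algebra ℚ L]

/-- `j` as an element of `F₀_L`, for a rational field `F₀` containing `j`. -/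
def jG (hj : jq ∈ F₀) : laurentBaseChange L F₀ :=
  ⟨jqModC L, by rw [← coeffEmb_jq]; exact coeffEmb_mem_laurentBaseChange L hj⟩

@[simp] theorem coe_jG (hj : jq ∈ F₀) : ((jG L hj : laurentBaseChange L F₀) : LaurentSeries L)
    = jqModC L := rfl

theorem transcendental_jG (hj : jq ∈ F₀) : Transcendental L (jG L hj) :=
  (transcendental_algebraMap_iff
    (algebraMap (laurentBaseChange L F₀) (LaurentSeries L)).injective).mp (transcendental_jqModC L)

variable (p : ℕ) [NeZero p]

theorem alphaL_jG (hj : jq ∈ F₀) :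
    alphaL F₀ p L (jG L hj) = jG L (le_levelField F₀ p hj) := Subtype.ext rfl

variable [IsAlgClosed L] [CharZero L]

/-- **Modular equation**: `j(q^p)` is integral over `L(j)`. -/
theorem isIntegral_betaL_jG (hp : p.Prime) (hj : jq ∈ F₀) :
    IsIntegral L⟮alphaL F₀ p L (jG L hj)⟯ (betaL F₀ p L (jG L hj)) := by
  obtain ⟨ζ, hζ⟩ := exists_primitiveRoot_unit L p
  have hrel := rel_expd (k := L) (ModEq.modularEquation p hp) ζ hζ one_ne_zero
  rw [one_mul, expd_one] at hrel
  have hy : IsIntegral L⟮alphaL F₀ p L (jG L hj)⟯ (alphaL F₀ p L (jG L hj)) :=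
    isIntegral_algebraMap (x := (⟨alphaL F₀ p L (jG L hj),
      IntermediateField.mem_adjoin_simple_self L _⟩ : L⟮alphaL F₀ p L (jG L hj)⟯))
  refine Fermat.Agent.S28.Conjugates.isIntegral_of_rel hy (ModEq.modularEquation p hp).Φ
    (ModEq.modularEquation p hp).monic ?_
  apply (algebraMap (laurentBaseChange L (levelField F₀ p)) (LaurentSeries L)).injective
  rw [map_zero, ← Polynomial.eval_map_apply, map_evalA_map]
  show eval (qExpand L p (jqModC L)) (map (evalA (jqModC L)) _) = 0
  rw [← expd_eq]
  exact hrel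

/-- **Finiteness of the level field.**  If `F₀_L` is finite over `L(j)`, so is `F₀(p)_L`. -/
theorem finiteDimensional_levelField (hp : p.Prime) (hj : jq ∈ F₀)
    [hfin : FiniteDimensional L⟮jG L hj⟯ (laurentBaseChange L F₀)] :
    FiniteDimensional L⟮jG L (le_levelField F₀ p hj)⟯
      (laurentBaseChange L (levelField F₀ p)) := by
  rw [← alphaL_jG L p hj]
  exact finiteDimensional_of_generated (alphaL F₀ p L) (betaL F₀ p L) (jG L hj)
    (isIntegral_betaL_jG L p hp hj) (eq_top_of_alphaL_betaL_mem F₀ p L)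

/-- **All inputs of the Hecke correspondence `T_p = α_* β^*`** on `Pic⁰ (F₀_L)` from the single
hypothesis that `F₀_L` is finite over `L(j)`. -/
theorem ffInputs_levelField (hp : p.Prime) (hj : jq ∈ F₀)
    [FiniteDimensional L⟮jG L hj⟯ (laurentBaseChange L F₀)] :
    FFInputs (betaL F₀ p L) (alphaL F₀ p L) := by
  haveI := finiteDimensional_levelField L p hp hj
  exact ffInputs _ _ (jG L hj) (transcendental_jG L hj) (jG L (le_levelField F₀ p hj))
    (transcendental_jG L (le_levelField F₀ p hj))

/-- The Hecke correspondence `T_p` on `Pic⁰ (F₀_L)`. -/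
def heckeL (hp : p.Prime) (hj : jq ∈ F₀)
    [FiniteDimensional L⟮jG L hj⟯ (laurentBaseChange L F₀)] :
    Pic0 L (laurentBaseChange L F₀) →+ Pic0 L (laurentBaseChange L F₀) :=
  corrOf (ffInputs_levelField L p hp hj)

/-- `T_p` commutes with the Galois action. -/
theorem galois_heckeL_comm (hp : p.Prime) (hj : jq ∈ F₀)
    [FiniteDimensional L⟮jG L hj⟯ (laurentBaseChange L F₀)] (σ : L ≃ₐ[ℚ] L)
    (x : Pic0 L (laurentBaseChange L F₀)) :
    σ • heckeL L p hp hj x = heckeL L p hp hj (σ • x) :=
  galois_heckeG_comm (ffInputs_levelField L p hp hj) σ x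

end JInv

end Fermat.Agent.S48x.HeckeFF
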