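import Fermat.Agent.Gateway.Hecke.Galois

/-!
# P-S48 (Deligne-Serre), G1 layer (b2): Hecke correspondences for general `q`-expansion fields

GENERIC in the rational model fields.  Let `F₀ F₁ : IntermediateField ℚ ℚ((q))` with `F₀ ≤ F₁` and
`f(q) ↦ f(q^p)` mapping `F₀` into `F₁` (for `Γ₁(M)`: `F₀ = gamma1Field M`,
`F₁ = gamma1Field M ⊔ qExpand p (gamma1Field M)`, the field of `Γ₁(M) ∩ Γ₀(p)`).  For every field of
constants `L`:

* `alphaG L h`, `betaG L p h : F₀_L →ₐ[L] F₁_L` (inclusion, `q ↦ q^p`) between the base-changed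
  fields `F_L := laurentBaseChange L F`; they intertwine the coefficientwise Galois actions
  (`intertwines_alphaG`, `intertwines_betaG`);
* for `L` algebraically closed of characteristic zero, and transcendental elements `t₀`, `t₁` over
  which `F₀_L`, `F₁_L` are finite: all inputs of the Prelude's `Pic0.correspondence`
  (`FFInputs`, `ffInputs`), the Hecke correspondence `heckeG = α_* β^*` on `Pic⁰ (F₀_L)` and its
  commutation with the Galois action (`galois_heckeG_comm`) and with every pair of intertwined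
  `L`-linear automorphisms (diamond operators; `smul_heckeG_comm`).
-/

set_option autoImplicit false
set_option linter.unusedSectionVars false
set_option linter.style.haveILetI false

noncomputable section

open ModularCurve AlgebraicCurve IntermediateField HahnSeries

namespace Fermat.Agent.S48x.HeckeFF

open Fermat.Agent.Gateway.Hecke

section Maps

variable (L : Type*) [Field L] [Algebra ℚ L]
variable {F₀ F₁ : IntermediateField ℚ (LaurentSeries ℚ)}

theorem laurentBaseChange_mono (h : F₀ ≤ F₁) :
    laurentBaseChange L F₀ ≤ laurentBaseChange L F₁ := by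
  rw [laurentBaseChange, IntermediateField.adjoin_le_iff]
  rintro _ ⟨y, hy, rfl⟩
  exact coeffEmb_mem_laurentBaseChange L (h hy)

variable {L}

theorem qExpand_mem_laurentBaseChange (p : ℕ) [NeZero p]
    (hF : ∀ y ∈ F₀, qExpand ℚ p y ∈ F₁) {x : LaurentSeries L}
    (hx : x ∈ laurentBaseChange L F₀) : qExpand L p x ∈ laurentBaseChange L F₁ := by
  rw [mem_laurentBaseChange_iff] at hx
  induction hx using Subfield.closure_induction with
  | mem y hy =>
      rcases hy with ⟨a, rfl⟩ | ⟨z, hz, rfl⟩
      · rw [algebraMap_laurentSeries_eq_single, qExpand_single, mul_zero,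
          ← algebraMap_laurentSeries_eq_single]
        exact (laurentBaseChange L F₁).algebraMap_mem _
      · have : qExpand L p (coeffEmb L z) = coeffEmb L (qExpand ℚ p z) :=
          (coeffMap_qExpand (algebraMap ℚ L) p z).symm
        rw [this]
        exact coeffEmb_mem_laurentBaseChange L (hF z hz)
  | one => simp
  | add x y _ _ hx hy => simpa using add_mem hx hy
  | neg x _ hx => simpa using neg_mem hx
  | inv x _ hx => simpa using inv_mem hx
  | mul x y _ _ hx hy => simpa using mul_mem hx hy

variable (L)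

/-- the inclusion `F₀_L ⊆ F₁_L` -/
def alphaG (h : F₀ ≤ F₁) : laurentBaseChange L F₀ →ₐ[L] laurentBaseChange L F₁ :=
  IntermediateField.inclusion (laurentBaseChange_mono L h)

@[simp] theorem coe_alphaG (h : F₀ ≤ F₁) (x : laurentBaseChange L F₀) :
    ((alphaG L h x : laurentBaseChange L F₁) : LaurentSeries L) = (x : LaurentSeries L) :=
  IntermediateField.coe_inclusion _ x

/-- the degeneracy map `f(q) ↦ f(q^p) : F₀_L → F₁_L` -/
def betaG (p : ℕ) [NeZero p] (h : ∀ y ∈ F₀, qExpand ℚ p y ∈ F₁) :
    laurentBaseChange L F₀ →ₐ[L] laurentBaseChange L F₁ where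
  toFun x := ⟨qExpand L p (x : LaurentSeries L), qExpand_mem_laurentBaseChange p h x.2⟩
  map_one' := Subtype.ext (map_one (qExpand L p))
  map_mul' _ _ := Subtype.ext (map_mul (qExpand L p) _ _)
  map_zero' := Subtype.ext (map_zero (qExpand L p))
  map_add' _ _ := Subtype.ext (map_add (qExpand L p) _ _)
  commutes' a := Subtype.ext <| by
    show qExpand L p (algebraMap L (LaurentSeries L) a) = algebraMap L (LaurentSeries L) a
    rw [algebraMap_laurentSeries_eq_single, qExpand_single, mul_zero]

@[simp] theorem coe_betaG (p : ℕ) [NeZero p] (h : ∀ y ∈ F₀, qExpand ℚ p y ∈ F₁)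
    (x : laurentBaseChange L F₀) :
    ((betaG L p h x : laurentBaseChange L F₁) : LaurentSeries L)
      = qExpand L p (x : LaurentSeries L) := rfl

/-- The inclusion intertwines the coefficientwise Galois actions. -/
theorem intertwines_alphaG (h : F₀ ≤ F₁) (σ : L ≃ₐ[ℚ] L) :
    Intertwines (alphaG L h) (arithmeticGalois F₀ σ) (arithmeticGalois F₁ σ) := fun x =>
  Subtype.ext (by
    rw [coe_arithmeticGalois_smul, coe_alphaG, coe_alphaG, coe_arithmeticGalois_smul])

/-- `q ↦ q^p` intertwines the coefficientwise Galois actions. -/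
theorem intertwines_betaG (p : ℕ) [NeZero p] (h : ∀ y ∈ F₀, qExpand ℚ p y ∈ F₁)
    (σ : L ≃ₐ[ℚ] L) :
    Intertwines (betaG L p h) (arithmeticGalois F₀ σ) (arithmeticGalois F₁ σ) := fun x =>
  Subtype.ext (by
    rw [coe_arithmeticGalois_smul, coe_betaG, coe_betaG, coe_arithmeticGalois_smul,
      coeffMap_qExpand])

end Maps

/-! ### The inputs of the correspondence -/

section Inputs

variable {K F F' : Type*} [Field K] [Field F] [Field F'] [Algebra K F] [Algebra K F']

/-- All inputs of `Pic0.correspondence φ ψ` (pull back along `φ`, push forward along `ψ`). -/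
structure FFInputs (φ ψ : F →ₐ[K] F') : Prop where
  intφ : φ.toRingHom.IsIntegral
  intψ : ψ.toRingHom.IsIntegral
  pd' : HasPrincipalDivisors K F'
  pd : HasPrincipalDivisors K F
  finφ : FiniteAlong K φ
  finψ : FiniteAlong K ψ
  fiφ : @FundamentalIdentityAlong K F F' _ _ _ _ _ φ intφ pd'
  fiψ : @FundamentalIdentityAlong K F F' _ _ _ _ _ ψ intψ pd'
  nfφ : NormFormulaAlong K φ finφ
  nfψ : NormFormulaAlong K ψ finψ
  deg : ∀ v : Place K F, v.deg = 1
  deg' : ∀ v : Place K F', v.deg = 1

variable [IsAlgClosed K] [CharZero K]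

theorem transcendental_algHom (φ : F →ₐ[K] F') {t : F} (ht : Transcendental K t) :
    Transcendental K (φ t) := by
  intro h
  apply ht
  obtain ⟨P, hP0, hP⟩ := h
  refine ⟨P, hP0, φ.toRingHom.injective ?_⟩
  rw [AlgHom.toRingHom_eq_coe, RingHom.coe_coe, ← Polynomial.aeval_algHom_apply, hP, map_zero]

/-- For function fields over an algebraically closed field of characteristic zero (finite over
`K(t₀)`, `K(t₁)`), every pair of homomorphisms satisfies all the inputs. -/
theorem ffInputs (φ ψ : F →ₐ[K] F') (t₀ : F) (ht₀ : Transcendental K t₀)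
    [FiniteDimensional K⟮t₀⟯ F] (t₁ : F') (ht₁ : Transcendental K t₁)
    [FiniteDimensional K⟮t₁⟯ F'] : FFInputs φ ψ := by
  have hfφ : FiniteAlong K φ :=
    finiteAlong_of_transcendental φ t₀ (transcendental_algHom φ ht₀) t₁ ht₁
  have hfψ : FiniteAlong K ψ :=
    finiteAlong_of_transcendental ψ t₀ (transcendental_algHom ψ ht₀) t₁ ht₁
  haveI pd' : HasPrincipalDivisors K F' := Fermat.Agent.S24.PD.hasPrincipalDivisors ht₁
  exact
    { intφ := isIntegral_of_finiteAlong φ hfφ
      intψ := isIntegral_of_finiteAlong ψ hfψ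
      pd' := pd'
      pd := Fermat.Agent.S24.PD.hasPrincipalDivisors ht₀
      finφ := hfφ
      finψ := hfψ
      fiφ := fundamentalIdentityAlong_of_finite φ _ hfφ t₀ ht₀
      fiψ := fundamentalIdentityAlong_of_finite ψ _ hfψ t₀ ht₀
      nfφ := normFormulaAlong_of_finite φ hfφ t₀ ht₀
      nfψ := normFormulaAlong_of_finite ψ hfψ t₀ ht₀
      deg := fun v => Fermat.Agent.S24.PD.deg_eq_one ht₀ v
      deg' := fun v => Fermat.Agent.S24.PD.deg_eq_one ht₁ v }

end Inputs

/-! ### The correspondence on `Pic⁰` -/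

section Corr

variable {K F F' : Type*} [Field K] [Field F] [Field F'] [Algebra K F] [Algebra K F']
variable {φ ψ : F →ₐ[K] F'}

/-- The correspondence `ψ_* φ^*` on `Pic⁰ F` attached to a pair with all inputs. -/
def corrOf (I : FFInputs φ ψ) : Pic0 K F →+ Pic0 K F :=
  haveI := I.pd'
  Pic0.correspondence φ ψ I.intφ I.intψ I.fiφ I.finψ I.nfψ

theorem corrOf_mk (I : FFInputs φ ψ) (D : Divisor.degZero (K := K) (F := F)) :
    corrOf I (Pic0.mk D) =
      haveI := I.pd'
      Pic0.mk (Pic0.degZeroCorrespondence φ ψ I.intφ I.intψ I.fiφ D) := rfl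

/-- The correspondence commutes with every pair of semilinear automorphisms intertwined by `φ`
and `ψ` (Galois action, diamond operators). -/
theorem smul_corrOf (I : FFInputs φ ψ) {g : SemilinearAut K F} {g' : SemilinearAut K F'}
    (h₁ : Intertwines φ g g') (h₂ : Intertwines ψ g g') (x : Pic0 K F) :
    g • corrOf I x = corrOf I (g • x) := by
  haveI := I.pd'
  exact pic0Correspondence_smul I.fiφ I.finψ I.nfψ
    (fun v => by rw [I.deg v]; exact one_ne_zero) h₁ h₂ x

end Corr

/-! ### The Hecke correspondence of a pair of `q`-expansion fields -/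

section Hecke

variable (L : Type*) [Field L] [Algebra ℚ L] [IsAlgClosed L]
variable {F₀ F₁ : IntermediateField ℚ (LaurentSeries ℚ)} (p : ℕ) [NeZero p]
variable (hle : F₀ ≤ F₁) (hq : ∀ y ∈ F₀, qExpand ℚ p y ∈ F₁)

/-- all inputs for the pair `(β, α)` -/
theorem ffInputsG (t₀ : laurentBaseChange L F₀) (ht₀ : Transcendental L t₀)
    [FiniteDimensional L⟮t₀⟯ (laurentBaseChange L F₀)]
    (t₁ : laurentBaseChange L F₁) (ht₁ : Transcendental L t₁)
    [FiniteDimensional L⟮t₁⟯ (laurentBaseChange L F₁)] :
    FFInputs (betaG L p hq) (alphaG L hle) :=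
  haveI := charZero_of_ratAlgebra L
  ffInputs _ _ t₀ ht₀ t₁ ht₁

variable {L p hle hq}

/-- **The Hecke correspondence** `T = α_* β^*` on `Pic⁰ (F₀_L)`. -/
def heckeG (I : FFInputs (betaG L p hq) (alphaG L hle)) :
    Pic0 L (laurentBaseChange L F₀) →+ Pic0 L (laurentBaseChange L F₀) :=
  corrOf I

/-- The Hecke correspondence commutes with the Galois action. -/
theorem galois_heckeG_comm (I : FFInputs (betaG L p hq) (alphaG L hle)) (σ : L ≃ₐ[ℚ] L)
    (x : Pic0 L (laurentBaseChange L F₀)) :
    σ • heckeG I x = heckeG I (σ • x) := by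
  rw [galois_smul_pic0_def, galois_smul_pic0_def]
  exact smul_corrOf I (intertwines_betaG L p hq σ) (intertwines_alphaG L hle σ) x

/-- The Hecke correspondence commutes with every pair of automorphisms (of `F₀_L`, `F₁_L`)
intertwined by `α` and `β`: diamond operators. -/
theorem smul_heckeG_comm (I : FFInputs (betaG L p hq) (alphaG L hle))
    {g : SemilinearAut L (laurentBaseChange L F₀)} {g' : SemilinearAut L (laurentBaseChange L F₁)}
    (hβ : Intertwines (betaG L p hq) g g') (hα : Intertwines (alphaG L hle) g g')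
    (x : Pic0 L (laurentBaseChange L F₀)) :
    g • heckeG I x = heckeG I (g • x) :=
  smul_corrOf I hβ hα x

end Hecke

end Fermat.Agent.S48x.HeckeFF
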