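/-
helper65 (P-S48, layer (b2), slice (S5) of note 1151): ANALYTIC DEGREE AND NORM along
`α = alphaG ℂ hle : F₀_ℂ → F₁_ℂ` for a generic pair of rational model fields `F₀ ≤ F₁`, from analytic
realisations (`ConjAbs.EmbData`) at both levels.

Generic clone of `Gateway/Dict/{NormAlpha (second half), NormQExp, NormQExpAux, NormQExpBridge}`
(which treat `G = Γ₀(N)`, `F₀ = modularFunctionFieldFull N`).  `G` is any subgroup of `SL(2,ℤ)`
(instance: `G1.Gamma1pm M`); the level-`(M;p)` field `F₁_ℂ` is realised with exact stabiliser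
`G ⊓ Γ₀(p)`.

* `AnaPair D0 D1 lev` : compatibility of the two realisations with `α` (inclusion) and
  `β` (`u(q) ↦ u(q^p)`, i.e. `z ↦ p z`), cusp-meromorphy at level `lev` and the range condition;
* `finrank_and_norm` : `[F₁_ℂ : α F₀_ℂ] = [G : G ∩ Γ₀(p)]` and the norm is the product of the
  conjugates;
* `norm_of_reps` : the norm in terms of explicit coset representatives;
* `emb_hecke_of_reps` : **D5**: `emb (Norm_α (β u)) = U(p z) ∏_{b<p} (σ • U)((z+b)/p)`, `U = emb u`;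
* `qExpand_eq_of_prod₂`, `normQExp_hecke_C` : the `q`-expansion norm formula (C1') over `ℂ` with the
  diamond twist.
-/
import Fermat.Agent.S48x.HeckeFF.Pair
import Fermat.Agent.Gateway.Dict.NormQExp

set_option autoImplicit false
set_option linter.unusedSectionVars false
set_option linter.style.haveILetI false

noncomputable section

open ModularCurve AlgebraicCurve IntermediateField CongruenceSubgroup
open UpperHalfPlane hiding I
open scoped MatrixGroups Real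

namespace Fermat.Agent.S48x.HeckeFF

open Fermat.Agent.S24 Fermat.Agent.S24.MerFun Fermat.Agent.S24.JLevel
open Fermat.Agent.Gateway.Dict Fermat.Agent.Gateway.Dict.ConjAbs
open Fermat.Agent.Gateway.Dict.NormAlpha Fermat.Agent.Gateway.Dict.NormQExpAux
open Fermat.Agent.Gateway.Dict.NormQExpBridge Fermat.Agent.Gateway.Dict.QExpMer
open Fermat.Agent.Gateway.Dict.QExpTranslate
open Fermat.Agent.Gateway.Kummer

/-! ### The bridge: conjugates of `z ↦ U(p z)` -/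

section Bridge

variable (ℓ : ℕ) [NeZero ℓ]

/-- The conjugate of `z ↦ U(ℓ z)` by `γ` is `z ↦ (δ⁻¹ • U)((z + b) / ℓ)`, as soon as
`diag(ℓ,1) γ⁻¹ = δ [[1,b],[0,ℓ]]` (no invariance of `U` needed). -/
theorem smul_smul_eq_upperGL_smul {U : MerFun} {γ δ : SL(2, ℤ)} {b : ℝ}
    (h : diagGL ℓ * HolFun.slToGLPos γ⁻¹ = HolFun.slToGLPos δ * upperGL ℓ b) :
    γ • ((diagGL ℓ)⁻¹ • U) = (upperGL ℓ b)⁻¹ • (δ⁻¹ • U) := by
  have h1 : HolFun.slToGLPos γ * (diagGL ℓ)⁻¹ = (diagGL ℓ * HolFun.slToGLPos γ⁻¹)⁻¹ := by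
    rw [mul_inv_rev, map_inv, inv_inv]
  have h2 : (HolFun.slToGLPos δ)⁻¹ • U = δ⁻¹ • U := by
    rw [← map_inv, ← sl_smul_eq_glPos]
  rw [sl_smul_eq_glPos, ← mul_smul, h1, h, mul_inv_rev, mul_smul, h2]

theorem smul_smul_eq_upperGL_smul_of_int {U : MerFun} {γ δ : SL(2, ℤ)} {b : ℤ}
    (h : !![(ℓ : ℤ), 0; 0, 1] * ((γ⁻¹ : SL(2, ℤ)) : Matrix (Fin 2) (Fin 2) ℤ) =
      (δ : Matrix (Fin 2) (Fin 2) ℤ) * !![1, b; 0, (ℓ : ℤ)]) :
    γ • ((diagGL ℓ)⁻¹ • U) = (upperGL ℓ (b : ℝ))⁻¹ • (δ⁻¹ • U) :=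
  smul_smul_eq_upperGL_smul ℓ (glPos_identity_of_int ℓ h)

end Bridge

/-! ### The analytic half of the `q`-expansion norm formula, two-function version -/

section QExp

variable (ℓ : ℕ) [NeZero ℓ]

/-- If `V(z) = U(ℓ z) * ∏_{b<ℓ} U'((z + b)/ℓ)` and `U`, `U'`, `V` have `q`-expansions `u`, `u'`,
`v`, then `v(q^ℓ) = u(q^(ℓ²)) * ∏_{b<ℓ} u'(ζ^b q)`, `ζ = e^{2πi/ℓ}`. -/
theorem qExpand_eq_of_prod₂ {U U' V : MerFun} {u u' v : LaurentSeries ℂ} (hU : HasQ U u)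
    (hU' : HasQ U' u') (hV : HasQ V v)
    (hprod : V = ((diagGL ℓ)⁻¹ • U) * ∏ b ∈ Finset.range ℓ, (upperGL ℓ (b : ℝ))⁻¹ • U') :
    qExpand ℂ ℓ v = qExpand ℂ (ℓ * ℓ) u *
      ∏ b ∈ Finset.range ℓ, twist (zetaR (1 / (ℓ : ℝ)) ^ b) u' := by
  have h1 : HasQ ((diagGL ℓ)⁻¹ • V) (qExpand ℂ ℓ v) := hV.smul_diagGL ℓ
  have h2 : (diagGL ℓ)⁻¹ • V = ((diagGL ℓ * diagGL ℓ)⁻¹ • U) *
      ∏ b ∈ Finset.range ℓ, (upperGL ℓ (b : ℝ) * diagGL ℓ)⁻¹ • U' := by
    rw [hprod, smul_mul', Finset.smul_prod', mul_inv_rev, mul_smul]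
    congr 1
    refine Finset.prod_congr rfl fun b _ => ?_
    rw [mul_inv_rev, mul_smul]
  have h3 : HasQ ((diagGL ℓ * diagGL ℓ)⁻¹ • U) (qExpand ℂ (ℓ * ℓ) u) :=
    hU.smul_scale (diagGL ℓ * diagGL ℓ) (coe_diagGL_mul_diagGL_smul ℓ)
  have h4 : ∀ b ∈ Finset.range ℓ, HasQ ((upperGL ℓ (b : ℝ) * diagGL ℓ)⁻¹ • U')
      (twist (zetaR (1 / (ℓ : ℝ)) ^ b) u') := by
    intro b _
    rw [← zetaR_div]
    exact hU'.smul_translate (upperGL ℓ (b : ℝ) * diagGL ℓ) (coe_upperGL_mul_diagGL_smul ℓ b)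
  have h5 := h3.mul (HasQ.prod (Finset.range ℓ) _ _ h4)
  rw [← h2] at h5
  exact h1.unique h5

end QExp

/-! ### Degree and norm along `α` -/

section AnaNorm

variable {F₀ F₁ : IntermediateField ℚ (LaurentSeries ℚ)} {p : ℕ} [NeZero p]
variable {hle : F₀ ≤ F₁} {hq : ∀ y ∈ F₀, qExpand ℚ p y ∈ F₁}
variable {G : Subgroup SL(2, ℤ)} {x0 : laurentBaseChange ℂ F₀} {x1 : laurentBaseChange ℂ F₁}

/-- Compatibility of analytic realisations of `F₀_ℂ` (stabiliser `G`) and `F₁_ℂ` (stabiliser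
`G ⊓ Γ₀(p)`) with the degeneracy maps `α` (inclusion) and `β` (`z ↦ p z`), cusp-meromorphy of the
upper level and the range condition for the lower level. -/
structure AnaPair (hle : F₀ ≤ F₁) (hq : ∀ y ∈ F₀, qExpand ℚ p y ∈ F₁)
    (D0 : EmbData ℂ (laurentBaseChange ℂ F₀) (RingHom.id ℂ) x0 G)
    (D1 : EmbData ℂ (laurentBaseChange ℂ F₁) (RingHom.id ℂ) x1 (G ⊓ Gamma0 p))
    (lev : ℕ) : Prop where
  emb_alpha : ∀ u, D1.emb (alphaG ℂ hle u) = D0.emb u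
  emb_beta : ∀ u, D1.emb (betaG ℂ p hq u) = (diagGL p)⁻¹ • D0.emb u
  cusp : ∀ f, D1.emb f ∈ cuspAllField lev
  range : ∀ x ∈ cuspAllField lev, (∀ γ ∈ G, γ • x = x) → x ∈ D0.emb.range

/-- `G ∩ Γ₀(p)` as a subgroup of `G`. -/
abbrev GamG (G : Subgroup SL(2, ℤ)) (p : ℕ) : Subgroup ↥G := (Gamma0 p).subgroupOf G

omit [NeZero p] in
theorem mem_GamG {γ : ↥G} : γ ∈ GamG G p ↔ (γ : SL(2, ℤ)) ∈ Gamma0 p := Subgroup.mem_subgroupOf

omit [NeZero p] in
theorem coe_smul_merFunG (γ : ↥G) (x : MerFun) : γ • x = (γ : SL(2, ℤ)) • x := rfl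

variable {D0 : EmbData ℂ (laurentBaseChange ℂ F₀) (RingHom.id ℂ) x0 G}
  {D1 : EmbData ℂ (laurentBaseChange ℂ F₁) (RingHom.id ℂ) x1 (G ⊓ Gamma0 p)} {lev : ℕ}

omit [NeZero p] in
theorem hfixG (D1 : EmbData ℂ (laurentBaseChange ℂ F₁) (RingHom.id ℂ) x1 (G ⊓ Gamma0 p)) :
    ∀ γ ∈ GamG G p, ∀ f : laurentBaseChange ℂ F₁, γ • D1.emb f = D1.emb f :=
  fun γ hγ f => D1.fixed (γ : SL(2, ℤ)) ⟨γ.2, mem_GamG.mp hγ⟩ f

omit [NeZero p] in
theorem hfixG' (D1 : EmbData ℂ (laurentBaseChange ℂ F₁) (RingHom.id ℂ) x1 (G ⊓ Gamma0 p))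
    (f : laurentBaseChange ℂ F₁) : ∀ γ ∈ GamG G p, γ • D1.emb f = D1.emb f :=
  fun γ hγ => hfixG D1 γ hγ f

section WithFintype

variable [Fintype (↥G ⧸ GamG G p)]

/-- **Degree and norm along `α`** (analytic form). -/
theorem finrank_and_norm (h : AnaPair hle hq D0 D1 lev) :
    FiniteAlong ℂ (alphaG ℂ hle) ∧
      finrankAlong ℂ (alphaG ℂ hle) = Fintype.card (↥G ⧸ GamG G p) ∧
      ∀ f : laurentBaseChange ℂ F₁, D0.emb (normAlong (alphaG ℂ hle) f) =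
        ∏ c : ↥G ⧸ GamG G p, RangeAbs.conj (GamG G p) (D1.emb f) (hfixG' D1 f) c :=
  haveI : CharZero (laurentBaseChange ℂ F₀) :=
    charZero_of_injective_algebraMap (algebraMap ℂ (laurentBaseChange ℂ F₀)).injective
  finrank_and_norm_along (alphaG ℂ hle) (GamG G p) D1.emb D0.emb h.emb_alpha (hfixG D1)
    (fun γ hγ => mem_GamG.mpr (D1.stab (γ : SL(2, ℤ)) hγ).2)
    (fun g e => D0.fixed (g : SL(2, ℤ)) g.2 e)
    (cuspAllField lev).toSubring
    (fun g f => smul_mem_cuspAllField (h.cusp f) (g : SL(2, ℤ)))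
    (fun x hx hinv => h.range x hx (fun γ hγ => hinv ⟨γ, hγ⟩))

theorem finiteAlong_alphaG (h : AnaPair hle hq D0 D1 lev) : FiniteAlong ℂ (alphaG ℂ hle) :=
  (finrank_and_norm h).1

theorem finrankAlong_alphaG (h : AnaPair hle hq D0 D1 lev) :
    finrankAlong ℂ (alphaG ℂ hle) = Fintype.card (↥G ⧸ GamG G p) :=
  (finrank_and_norm h).2.1

/-- The norm in terms of explicit coset representatives. -/
theorem norm_of_reps (h : AnaPair hle hq D0 D1 lev) {X : Type*} [Fintype X] (r : X → ↥G)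
    (hr : Function.Bijective fun x => (QuotientGroup.mk (r x) : ↥G ⧸ GamG G p))
    (f : laurentBaseChange ℂ F₁) :
    D0.emb (normAlong (alphaG ℂ hle) f) = ∏ x : X, ((r x : ↥G) : SL(2, ℤ)) • D1.emb f := by
  rw [(finrank_and_norm h).2.2 f]
  exact (Fintype.prod_bijective _ hr _ _ fun x => rfl).symm

end WithFintype

/-! ### Versions without a `Fintype` hypothesis -/

instance finite_quotient_GamG : Finite (↥G ⧸ GamG G p) :=
  Subgroup.finite_quotient_of_finiteIndex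

theorem finiteAlong_alphaG' (h : AnaPair hle hq D0 D1 lev) : FiniteAlong ℂ (alphaG ℂ hle) :=
  haveI : Fintype (↥G ⧸ GamG G p) := Fintype.ofFinite _
  finiteAlong_alphaG h

/-- The degree of `α` is the index of `G ∩ Γ₀(p)` in `G`. -/
theorem finrankAlong_alphaG_eq_relIndex (h : AnaPair hle hq D0 D1 lev) :
    finrankAlong ℂ (alphaG ℂ hle) = (Gamma0 p).relIndex G := by
  haveI : Fintype (↥G ⧸ GamG G p) := Fintype.ofFinite _
  rw [finrankAlong_alphaG h, Subgroup.relIndex, Subgroup.index, Nat.card_eq_fintype_card]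

theorem norm_of_reps' (h : AnaPair hle hq D0 D1 lev) {X : Type*} [Fintype X] (r : X → ↥G)
    (hr : Function.Bijective fun x => (QuotientGroup.mk (r x) : ↥G ⧸ GamG G p))
    (f : laurentBaseChange ℂ F₁) :
    D0.emb (normAlong (alphaG ℂ hle) f) = ∏ x : X, ((r x : ↥G) : SL(2, ℤ)) • D1.emb f :=
  haveI : Fintype (↥G ⧸ GamG G p) := Fintype.ofFinite _
  norm_of_reps h r hr f

/-! ### D5: the Hecke product -/

/-- **D5 in explicit form.** Given coset representatives `1, γ_b` (`b < p`) of `G ∩ Γ₀(p)` in `G`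
with `diag(p,1) γ_b⁻¹ = d_b [[1,b],[0,p]]`, `d_b σ ∈ G`, the analytic function attached to
`Norm_α (β u)` is `z ↦ U(p z) ∏_{b<p} (σ • U)((z+b)/p)`, `U = emb u`. -/
theorem emb_hecke_of_reps (h : AnaPair hle hq D0 D1 lev) (r : Option (Fin p) → ↥G)
    (hr : Function.Bijective fun x => (QuotientGroup.mk (r x) : ↥G ⧸ GamG G p))
    (hnone : r none = 1) (σ : SL(2, ℤ)) (d : Fin p → SL(2, ℤ)) (hd : ∀ b, d b * σ ∈ G)
    (hmat : ∀ b : Fin p, !![(p : ℤ), 0; 0, 1] *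
        ((((r (some b) : ↥G) : SL(2, ℤ))⁻¹ : SL(2, ℤ)) : Matrix (Fin 2) (Fin 2) ℤ) =
      (d b : Matrix (Fin 2) (Fin 2) ℤ) * !![1, ((b : ℕ) : ℤ); 0, (p : ℤ)])
    (u : laurentBaseChange ℂ F₀) :
    D0.emb (normAlong (alphaG ℂ hle) (betaG ℂ p hq u)) = ((diagGL p)⁻¹ • D0.emb u) *
      ∏ b ∈ Finset.range p, (upperGL p (b : ℝ))⁻¹ • (σ • D0.emb u) := by
  rw [norm_of_reps' h r hr, Fintype.prod_option, hnone, h.emb_beta]
  congr 1
  · rw [Subgroup.coe_one, one_smul]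
  · rw [← Fin.prod_univ_eq_prod_range (fun b : ℕ => (upperGL p (b : ℝ))⁻¹ • (σ • D0.emb u)) p]
    refine Finset.prod_congr rfl fun b _ => ?_
    have h1 := smul_smul_eq_upperGL_smul_of_int p (U := D0.emb u) (hmat b)
    rw [h1, Int.cast_natCast]
    congr 1
    -- `(d b)⁻¹ • U = σ • U` since `d b * σ ∈ G` fixes `U`
    have h2 := D0.fixed _ (hd b) u
    calc (d b)⁻¹ • D0.emb u = (d b)⁻¹ • ((d b * σ) • D0.emb u) := by rw [h2]
      _ = σ • D0.emb u := by rw [← mul_smul, inv_mul_cancel_left]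

/-- **(C1') over `ℂ`**, the `q`-expansion norm formula with the diamond twist `dC` (realising
`U ↦ σ • U`), from the coset data. -/
theorem normQExp_hecke_C (h : AnaPair hle hq D0 D1 lev) (r : Option (Fin p) → ↥G)
    (hr : Function.Bijective fun x => (QuotientGroup.mk (r x) : ↥G ⧸ GamG G p))
    (hnone : r none = 1) (σ : SL(2, ℤ)) (d : Fin p → SL(2, ℤ)) (hd : ∀ b, d b * σ ∈ G)
    (hmat : ∀ b : Fin p, !![(p : ℤ), 0; 0, 1] *
        ((((r (some b) : ↥G) : SL(2, ℤ))⁻¹ : SL(2, ℤ)) : Matrix (Fin 2) (Fin 2) ℤ) =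
      (d b : Matrix (Fin 2) (Fin 2) ℤ) * !![1, ((b : ℕ) : ℤ); 0, (p : ℤ)])
    (hQ : ∀ f : laurentBaseChange ℂ F₀, HasQ (D0.emb f) (f : LaurentSeries ℂ))
    (dC : laurentBaseChange ℂ F₀ → laurentBaseChange ℂ F₀)
    (hdC : ∀ u, D0.emb (dC u) = σ • D0.emb u) (u : laurentBaseChange ℂ F₀) :
    qExpand ℂ p ((normAlong (alphaG ℂ hle) (betaG ℂ p hq u) : laurentBaseChange ℂ F₀) :
        LaurentSeries ℂ) =
      qExpand ℂ (p * p) (u : LaurentSeries ℂ) *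
        ∏ b ∈ Finset.range p, twist (zetaR (1 / (p : ℝ)) ^ b) ((dC u : laurentBaseChange ℂ F₀) :
          LaurentSeries ℂ) := by
  refine qExpand_eq_of_prod₂ p (hQ u) (hQ (dC u)) (hQ _) ?_
  rw [hdC]
  exact emb_hecke_of_reps h r hr hnone σ d hd hmat u

end AnaNorm

end Fermat.Agent.S48x.HeckeFF
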