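/-
P-S48 (Deligne-Serre), layer (b2), slice (S6) (helper25): explicit representatives of the left
cosets of `±Γ₁(M) ∩ Γ₀(p)` in `±Γ₁(M)` for a prime `p ∤ M`.

With `p s - M q = 1` (Bezout) the representatives of `Gateway/Dict/CosetsP1`
  `γ_b = [[M b + s p, -(b + q)], [-M, 1]]`  (`b` mod `p`),  `δ = [[p, q], [M, s]] ∈ Γ₀(M)`
all lie in `Γ₁(M)`, satisfy `diag(p, 1) * γ_b⁻¹ = δ * [[1, b], [0, p]]`, and together with `1`
they represent `±Γ₁(M) / (±Γ₁(M) ∩ Γ₀(p))`; moreover `δ σ ∈ ±Γ₁(M)` for every twisting element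
`σ ∈ Γ₀(M)` with lower right entry `≡ p mod M`.
-/
import Mathlib
import Fermat.Agent.S48x.G1.Hecke.Coh1
import Fermat.Agent.Gateway.Dict.CosetsP1

set_option autoImplicit false

open CongruenceSubgroup MatrixGroups

namespace Fermat.Agent.S48x.HeckeFF

open Fermat.Agent.S48x.G1 Fermat.Agent.Gateway.Dict.CosetsP1

variable {M p : ℕ}

/-- The subgroup `±Γ₁(M) ∩ Γ₀(p)` of `±Γ₁(M)`. -/
abbrev sub1 (M p : ℕ) : Subgroup ↥(Gamma1pm M) := (Gamma0 p).subgroupOf (Gamma1pm M)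

/-- The representative `γ_b` lies in `±Γ₁(M)` (its lower right entry is `1`). -/
theorem rep_mem_Gamma1pm (h : Nat.Coprime p M) (b : ℤ) : rep h b ∈ Gamma1pm M := by
  refine ⟨rep_mem h b, Or.inl ?_⟩
  simp [lr, coe_rep]

/-- `γ_b` as an element of `±Γ₁(M)`. -/
def rep1G (h : Nat.Coprime p M) (b : ℤ) : ↥(Gamma1pm M) := ⟨rep h b, rep_mem_Gamma1pm h b⟩

@[simp] theorem coe_rep1G (h : Nat.Coprime p M) (b : ℤ) :
    ((rep1G h b : ↥(Gamma1pm M)) : SL(2, ℤ)) = rep h b := rfl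

/-- The element of `Γ₀(M)` underlying an element of `±Γ₁(M)`. -/
def pmToGamma0 (g : ↥(Gamma1pm M)) : ↥(Gamma0 M) := ⟨g, Gamma1pm_le_Gamma0 M g.2⟩

@[simp] theorem coe_pmToGamma0 (g : ↥(Gamma1pm M)) : ((pmToGamma0 g : ↥(Gamma0 M)) : SL(2, ℤ)) = g := rfl

theorem pmToGamma0_rep1G (h : Nat.Coprime p M) (b : ℤ) : pmToGamma0 (rep1G h b) = repG h b := rfl

theorem pmToGamma0_one : pmToGamma0 (1 : ↥(Gamma1pm M)) = 1 := rfl

/-- **Comparison of the two coset spaces**: two elements of `±Γ₁(M)` are congruent modulo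
`Γ₀(p)` iff they are congruent modulo `Γ₀(M p)` as elements of `Γ₀(M)`. -/
theorem mk_eq_mk_iff_pmToGamma0 (h : Nat.Coprime p M) (g g' : ↥(Gamma1pm M)) :
    (QuotientGroup.mk g : ↥(Gamma1pm M) ⧸ sub1 M p) = QuotientGroup.mk g' ↔
      (QuotientGroup.mk (pmToGamma0 g) : ↥(Gamma0 M) ⧸ sub M p) = QuotientGroup.mk (pmToGamma0 g') := by
  rw [mk_eq_mk_iff, QuotientGroup.eq, Subgroup.mem_subgroupOf, mem_Gamma0_iff_dvd]
  have hM : (M : ℤ) ∣ ((g : SL(2, ℤ))⁻¹ * (g' : SL(2, ℤ))).1 1 0 :=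
    mem_Gamma0_iff_dvd.mp ((Gamma0 M).mul_mem ((Gamma0 M).inv_mem (Gamma1pm_le_Gamma0 M g.2))
      (Gamma1pm_le_Gamma0 M g'.2))
  have hcop : IsCoprime (M : ℤ) (p : ℤ) := by
    rw [Int.isCoprime_iff_gcd_eq_one, Int.gcd_natCast_natCast]
    exact h.symm
  change (p : ℤ) ∣ ((g : SL(2, ℤ))⁻¹ * (g' : SL(2, ℤ))).1 1 0 ↔
    ((M * p : ℕ) : ℤ) ∣ ((g : SL(2, ℤ))⁻¹ * (g' : SL(2, ℤ))).1 1 0
  push_cast
  exact ⟨fun h1 => hcop.mul_dvd hM h1, fun h1 => (dvd_mul_left _ _).trans h1⟩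

/-- The representatives as a function on `Option (Fin p)`: `none ↦ 1`, `b ↦ γ_b`. -/
def reps1 (h : Nat.Coprime p M) : Option (Fin p) → ↥(Gamma1pm M)
  | none => 1
  | some b => rep1G h ((b : ℕ) : ℤ)

@[simp] theorem reps1_none (h : Nat.Coprime p M) : reps1 (M := M) (p := p) h none = 1 := rfl

@[simp] theorem reps1_some (h : Nat.Coprime p M) (b : Fin p) :
    reps1 h (some b) = rep1G h ((b : ℕ) : ℤ) := rfl

/-- The index map `Option (Fin p) → ℙ¹(𝔽_p)`. -/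
def optFinToP1 (p : ℕ) : Option (Fin p) → OnePoint (ZMod p) :=
  Option.map fun b => ((b : ℕ) : ZMod p)

theorem optFinToP1_bijective (p : ℕ) [NeZero p] : Function.Bijective (optFinToP1 p) := by
  have hb : Function.Bijective fun b : Fin p => ((b : ℕ) : ZMod p) := by
    constructor
    · intro a b hab
      have h1 := congrArg ZMod.val hab
      simp only [ZMod.val_natCast_of_lt a.2, ZMod.val_natCast_of_lt b.2] at h1
      exact Fin.ext h1
    · intro z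
      exact ⟨⟨z.val, ZMod.val_lt z⟩, ZMod.natCast_zmod_val z⟩
  refine ⟨Option.map_injective hb.1, fun y => ?_⟩
  rcases y with _ | z
  · exact ⟨none, rfl⟩
  · obtain ⟨b, hb'⟩ := hb.2 z
    exact ⟨some b, congrArg some hb'⟩

theorem mk_pmToGamma0_reps1 [NeZero p] (h : Nat.Coprime p M) (x : Option (Fin p)) :
    (QuotientGroup.mk (pmToGamma0 (reps1 h x)) : ↥(Gamma0 M) ⧸ sub M p) = cosetMap h (optFinToP1 p x) := by
  rcases x with _ | b
  · rfl
  · change (QuotientGroup.mk (repG h ((b : ℕ) : ℤ)) : ↥(Gamma0 M) ⧸ sub M p) =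
      QuotientGroup.mk (repG h ((((b : ℕ) : ZMod p).val : ℕ) : ℤ))
    rw [ZMod.val_natCast_of_lt b.2]

/-- **The representatives `1, γ_b` (`b < p`) form a complete system of representatives of
`±Γ₁(M) / (±Γ₁(M) ∩ Γ₀(p))`.** -/
theorem reps1_bijective (hp : p.Prime) (hpM : ¬ p ∣ M) :
    Function.Bijective fun x : Option (Fin p) =>
      (QuotientGroup.mk (reps1 ((Nat.Prime.coprime_iff_not_dvd hp).mpr hpM) x) :
        ↥(Gamma1pm M) ⧸ sub1 M p) := by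
  have : NeZero p := ⟨hp.ne_zero⟩
  set h := (Nat.Prime.coprime_iff_not_dvd hp).mpr hpM with hh
  constructor
  · intro x y hxy
    have h1 := (mk_eq_mk_iff_pmToGamma0 h _ _).mp hxy
    rw [mk_pmToGamma0_reps1, mk_pmToGamma0_reps1] at h1
    exact (optFinToP1_bijective p).1 ((cosetMap_bijective hp hpM).1 h1)
  · intro c
    induction c using QuotientGroup.induction_on with
    | H g =>
      obtain ⟨x0, hx0⟩ := (cosetMap_bijective hp hpM).2 (QuotientGroup.mk (pmToGamma0 g))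
      obtain ⟨x, rfl⟩ := (optFinToP1_bijective p).2 x0
      refine ⟨x, (mk_eq_mk_iff_pmToGamma0 h _ _).mpr ?_⟩
      rw [mk_pmToGamma0_reps1]
      exact hx0

/-- `δ σ ∈ ±Γ₁(M)` for a twisting element `σ` (lower right entry `≡ p mod M`). -/
theorem delta_mul_mem_Gamma1pm (h : Nat.Coprime p M) {σ : SL(2, ℤ)} (hσ : σ ∈ Gamma0 M)
    (hlr : lr M σ = (p : ZMod M)) : delta h * σ ∈ Gamma1pm M := by
  refine ⟨(Gamma0 M).mul_mem (delta_mem h) hσ, Or.inl ?_⟩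
  rw [lr_mul (delta_mem h), hlr]
  have h1 : lr M (delta h) = ((sB M p : ℤ) : ZMod M) := by simp [lr, coe_delta]
  rw [h1]
  have h2 := congrArg (fun z : ℤ => (z : ZMod M)) (bezout M p h)
  simp only [Int.cast_sub, Int.cast_mul, Int.cast_natCast, ZMod.natCast_self, zero_mul,
    sub_zero, Int.cast_one] at h2
  rw [mul_comm]
  exact h2

/-- **(S6) Coset representatives for `T_p` on `±Γ₁(M)`.**  For a prime `p ∤ M` and a twisting
element `t` there are representatives `r : Option (Fin p) → ±Γ₁(M)` of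
`±Γ₁(M) / (±Γ₁(M) ∩ Γ₀(p))` with `r none = 1` and matrices `d b` with `d b * t.σ ∈ ±Γ₁(M)` and
`diag(p, 1) * (r b)⁻¹ = d b * [[1, b], [0, p]]`. -/
theorem exists_reps1 [NeZero M] [Fact p.Prime] (hpM : ¬ p ∣ M) (t : Twist M p) :
    ∃ (r : Option (Fin p) → ↥(Gamma1pm M)) (d : Fin p → SL(2, ℤ)),
      Function.Bijective (fun x =>
        (QuotientGroup.mk (r x) : ↥(Gamma1pm M) ⧸ (Gamma0 p).subgroupOf (Gamma1pm M))) ∧
      r none = 1 ∧ (∀ b, d b * t.σ ∈ Gamma1pm M) ∧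
      ∀ b : Fin p, !![(p : ℤ), 0; 0, 1] *
          (((r (some b) : SL(2, ℤ))⁻¹ : SL(2, ℤ)) : Matrix (Fin 2) (Fin 2) ℤ) =
        (d b : Matrix (Fin 2) (Fin 2) ℤ) * !![1, ((b : ℕ) : ℤ); 0, (p : ℤ)] := by
  have hp : p.Prime := Fact.out
  set h := (Nat.Prime.coprime_iff_not_dvd hp).mpr hpM with hh
  refine ⟨reps1 h, fun _ => delta h, reps1_bijective hp hpM, rfl,
    fun _ => delta_mul_mem_Gamma1pm h t.mem t.lr_eq, fun b => ?_⟩
  exact diag_mul_rep_inv h ((b : ℕ) : ℤ)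

/-- The index of `±Γ₁(M) ∩ Γ₀(p)` in `±Γ₁(M)` is `p + 1`. -/
theorem card_quot1 (hp : p.Prime) (hpM : ¬ p ∣ M) :
    Nat.card (↥(Gamma1pm M) ⧸ sub1 M p) = p + 1 := by
  rw [← Nat.card_congr (Equiv.ofBijective _ (reps1_bijective hp hpM)), Nat.card_eq_fintype_card,
    Fintype.card_option, Fintype.card_fin]

end Fermat.Agent.S48x.HeckeFF
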