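import Fermat.Agent.S48x.HeckeFF.Pair
import Fermat.Agent.Gateway.Kummer.Basic
import Fermat.Agent.Gateway.Kummer.Twist
import Fermat.Agent.Gateway.ESC.NormQExpGen

/-!
# P-S48 (Deligne-Serre), G1 layer (b2): the `q`-expansion norm formula for a pair of fields

Generic in `F₀ ≤ F₁ : IntermediateField ℚ ℚ((q))` with `f(q) ↦ f(q^p) : F₀ → F₁` (for `Γ₁(M)`:
`F₀ = gamma1Field M`, `F₁` = the field of `Γ₁(M) ∩ Γ₀(p)`).  `α = alphaG` (inclusion),
`β = betaG` (`q ↦ q^p`).

INPUTS (new mathematics, supplied by the model / cusp-expansion layer):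
* `hdeg : [F₁_L : α F₀_L] = p + 1`;
* the SECOND EMBEDDING `ι₀ : F₁_L → L((s))` with `ι₀ (α h) = h(s^p)` (the `q`-expansion at the
  cusp of width `p` above `∞`); for `Γ₁(M)` one has `ι₀ (β v) = (δ v)(s)` with `δ` a diamond
  automorphism.

OUTPUT: with `ζ` a primitive `p`-th root of unity and `t^p = q`,
* `normQExp_alphaG` : `(Norm_α y)(t^p) = y(t^p) * ∏_{b<p} (ι₀ y)(ζ^b t)` for all `y : F₁_L`;
* `normQExp_hecke`  : `(Norm_α (β u))(t^p) = u(t^(p²)) * ∏_{b<p} (δ u)(ζ^b t)`,
  the norm formula (C1') with diamond twist.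
-/

set_option autoImplicit false
set_option linter.unusedSectionVars false
set_option linter.style.haveILetI false

noncomputable section

open ModularCurve AlgebraicCurve IntermediateField HahnSeries

namespace Fermat.Agent.S48x.HeckeFF

open Fermat.Agent.Gateway Fermat.Agent.Gateway.Hecke Fermat.Agent.Gateway.ESC
open Fermat.Agent.S28 Fermat.Agent.S28.Tower

section Abstract

variable {F F' E ι : Type*} [Field F] [Field F'] [Field E] [Fintype ι]

/-- **Norm = product over an explicit family of pairwise distinct embeddings of the right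
cardinality.** -/
theorem norm_eq_prod_of_distinct_embeddings [IsAlgClosed E] (f : F →+* F') (e : F →+* E)
    (hfin : letI := f.toAlgebra; Module.Finite F F')
    (hsep : letI := f.toAlgebra; Algebra.IsSeparable F F')
    (hcard : letI := f.toAlgebra; Fintype.card ι = Module.finrank F F') (s : ι → F' →+* E)
    (hs : ∀ i, (s i).comp f = e) (hinj : Function.Injective s) (y : F') :
    e (@Algebra.norm F F' _ _ f.toAlgebra y) = ∏ i, s i y := by
  classical
  letI := f.toAlgebra
  letI := e.toAlgebra
  haveI : Module.Finite F F' := hfin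
  haveI : Algebra.IsSeparable F F' := hsep
  have hsx : ∀ i x, s i (f x) = e x := fun i x => by
    rw [← hs i]; rfl
  let s' : ι → (F' →ₐ[F] E) := fun i =>
    { s i with commutes' := fun x => hsx i x }
  have hs' : ∀ i y, s' i y = s i y := fun i y => rfl
  have hinj' : Function.Injective s' := by
    intro i j hij
    apply hinj
    ext y
    rw [← hs' i y, ← hs' j y, hij]
  have hbij : Function.Bijective s' := by
    rw [Fintype.bijective_iff_injective_and_card]
    refine ⟨hinj', ?_⟩
    rw [AlgHom.card F F' E, hcard]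
  have h1 : e (Algebra.norm F y) = ∏ σ : F' →ₐ[F] E, σ y :=
    Algebra.norm_eq_prod_embeddings F E y
  rw [h1]
  exact (Fintype.prod_bijective s' hbij _ _ fun i => (hs' i y).symm).symm

/-- Version with all embeddings factoring through a field `S ⊆ E` (e.g. `S = L((t))`). -/
theorem norm_eq_prod_of_distinct_embeddings' [IsAlgClosed E] {S : Type*} [Field S] (emb : S →+* E)
    (f : F →+* F') (e : F →+* S)
    (hfin : letI := f.toAlgebra; Module.Finite F F')
    (hsep : letI := f.toAlgebra; Algebra.IsSeparable F F')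
    (hcard : letI := f.toAlgebra; Fintype.card ι = Module.finrank F F') (s : ι → F' →+* S)
    (hs : ∀ i x, s i (f x) = e x) (hinj : Function.Injective s) (y : F') :
    e (@Algebra.norm F F' _ _ f.toAlgebra y) = ∏ i, s i y := by
  have key := norm_eq_prod_of_distinct_embeddings f (emb.comp e) hfin hsep hcard
    (fun i => emb.comp (s i))
    (fun i => RingHom.ext fun x => by
      rw [RingHom.comp_apply, RingHom.comp_apply, RingHom.comp_apply, hs])
    (fun i j hij => hinj (RingHom.ext fun x => emb.injective (by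
      have := congrFun (congrArg DFunLike.coe hij) x
      rwa [RingHom.comp_apply, RingHom.comp_apply] at this))) y
  apply emb.injective
  rw [map_prod]
  rw [RingHom.comp_apply] at key
  rw [key]
  refine Finset.prod_congr rfl fun i _ => ?_
  rw [RingHom.comp_apply]

end Abstract

section Twist

variable {L : Type*} [Field L]

theorem kummerTwist_eq_towerTwist (ζ : Lˣ) : Kummer.twist ζ = Tower.twist ζ := by
  ext f n
  rw [Kummer.twist_coeff, Tower.twist_coeff]

theorem towerTwist_qExpand_of_pow_eq_one {p : ℕ} [NeZero p] {ζ : Lˣ} (hζ : ζ ^ p = 1) (i : ℕ)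
    (f : LaurentSeries L) : Tower.twist (ζ ^ i) (qExpand L p f) = qExpand L p f := by
  rw [← expand_eq_qExpand]
  exact twist_expand_of_pow_eq_one (NeZero.ne p) _
    (by rw [← pow_mul, mul_comm, pow_mul, hζ, one_pow]) f

end Twist

section Main

variable {L : Type*} [Field L] [Algebra ℚ L] [IsAlgClosed L]
variable {F₀ F₁ : IntermediateField ℚ (LaurentSeries ℚ)} {p : ℕ} [NeZero p]
variable {hle : F₀ ≤ F₁}

/-- the natural embedding `F₁_L ⊆ L((q))` -/
def natEmbG (L : Type*) [Field L] [Algebra ℚ L] (F : IntermediateField ℚ (LaurentSeries ℚ)) :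
    laurentBaseChange L F →+* LaurentSeries L :=
  algebraMap (laurentBaseChange L F) (LaurentSeries L)

omit [IsAlgClosed L] in
theorem natEmbG_apply (F : IntermediateField ℚ (LaurentSeries ℚ)) (u : laurentBaseChange L F) :
    natEmbG L F u = (u : LaurentSeries L) := rfl

/-- the `p + 1` embeddings of `F₁_L` over `α F₀_L` into `L((t))`, `t^p = q` -/
def famAlphaG (p : ℕ) [NeZero p] (ι₀ : laurentBaseChange L F₁ →+* LaurentSeries L) (ζ : Lˣ) :
    Option (Fin p) → (laurentBaseChange L F₁ →+* LaurentSeries L)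
  | none => (qExpand L p).comp (natEmbG L F₁)
  | some i => (Tower.twist (ζ ^ (i : ℕ))).comp ι₀

omit [IsAlgClosed L] in
theorem famAlphaG_none (ι₀ : laurentBaseChange L F₁ →+* LaurentSeries L) (ζ : Lˣ)
    (u : laurentBaseChange L F₁) :
    famAlphaG p ι₀ ζ none u = qExpand L p (u : LaurentSeries L) := rfl

omit [IsAlgClosed L] in
theorem famAlphaG_some (ι₀ : laurentBaseChange L F₁ →+* LaurentSeries L) (ζ : Lˣ) (i : Fin p)
    (u : laurentBaseChange L F₁) :
    famAlphaG p ι₀ ζ (some i) u = Tower.twist (ζ ^ (i : ℕ)) (ι₀ u) := rfl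

omit [IsAlgClosed L] in
theorem isSeparable_alongG (a : laurentBaseChange L F₀ →ₐ[L] laurentBaseChange L F₁)
    (hfin : FiniteAlong L a) :
    letI := a.toRingHom.toAlgebra
    Algebra.IsSeparable (laurentBaseChange L F₀) (laurentBaseChange L F₁) := by
  letI := a.toRingHom.toAlgebra
  haveI : CharZero L := charZero_of_ratAlgebra L
  haveI : CharZero (laurentBaseChange L F₀) :=
    charZero_of_injective_algebraMap (algebraMap L (laurentBaseChange L F₀)).injective
  haveI : FiniteDimensional (laurentBaseChange L F₀) (laurentBaseChange L F₁) := hfin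
  infer_instance

omit [IsAlgClosed L] in
/-- Distinctness of the family from the `j`-invariant: if some `y : F₁_L` has natural expansion
`j(q^p)` and second expansion `j(s)` (e.g. `y = β j`), the `p + 1` embeddings are distinct. -/
theorem famAlphaG_injective_of_j (hp : 2 ≤ p) (ι₀ : laurentBaseChange L F₁ →+* LaurentSeries L)
    {ζ : Lˣ} (hζ : IsPrimitiveRoot ζ p) (y : laurentBaseChange L F₁)
    (hy : (y : LaurentSeries L) = jS L 1 p) (hy₀ : ι₀ y = jS L 1 1) :
    Function.Injective (famAlphaG p ι₀ ζ) := by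
  have hp0 : p ≠ 0 := NeZero.ne p
  have hnone : famAlphaG p ι₀ ζ none y = jS L 1 (p * p) := by
    rw [famAlphaG_none, hy, ← expand_eq_qExpand, expand_jS hp0 hp0]
  have hsome : ∀ i : Fin p, famAlphaG p ι₀ ζ (some i) y = jS L (ζ ^ (i : ℕ)) 1 := by
    intro i
    rw [famAlphaG_some, hy₀, twist_jS one_ne_zero, pow_one, mul_one]
  have hpp : p * p ≠ 1 := by
    intro h
    have : p ∣ 1 := Dvd.intro _ h
    have := Nat.le_of_dvd one_pos this
    omega
  intro c c' h
  have hy' := congrFun (congrArg DFunLike.coe h) y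
  cases c with
  | none =>
    cases c' with
    | none => rfl
    | some i' =>
      exfalso
      rw [hnone, hsome] at hy'
      exact hpp ((jS_eq_jS_iff (Nat.mul_ne_zero hp0 hp0) one_ne_zero).mp hy').1
  | some i =>
    cases c' with
    | none =>
      exfalso
      rw [hnone, hsome] at hy'
      exact hpp ((jS_eq_jS_iff one_ne_zero (Nat.mul_ne_zero hp0 hp0)).mp hy').1.symm
    | some i' =>
      rw [hsome, hsome] at hy'
      have h2 := ((jS_eq_jS_iff one_ne_zero one_ne_zero).mp hy').2
      have h3 := hζ.pow_inj i.2 i'.2 h2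
      exact congrArg some (Fin.ext h3)

variable (hle)

/-- **The norm formula along `α`** (family form). -/
theorem qExpand_normAlong_alphaG (hfin : FiniteAlong L (alphaG L hle))
    (hdeg : finrankAlong L (alphaG L hle) = p + 1)
    (ι₀ : laurentBaseChange L F₁ →+* LaurentSeries L)
    (hι₀ : ∀ x : laurentBaseChange L F₀, ι₀ (alphaG L hle x) = qExpand L p (x : LaurentSeries L))
    {ζ : Lˣ} (hζ : ζ ^ p = 1) (hinj : Function.Injective (famAlphaG p ι₀ ζ))
    (y : laurentBaseChange L F₁) :
    qExpand L p ((Kummer.normAlong (alphaG L hle) y : laurentBaseChange L F₀) : LaurentSeries L)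
      = ∏ c, famAlphaG p ι₀ ζ c y := by
  have hcard : letI := (alphaG L hle).toRingHom.toAlgebra
      Fintype.card (Option (Fin p)) =
        Module.finrank (laurentBaseChange L F₀) (laurentBaseChange L F₁) := by
    rw [Fintype.card_option, Fintype.card_fin]
    exact hdeg.symm
  have key := norm_eq_prod_of_distinct_embeddings'
    (algebraMap (LaurentSeries L) (AlgebraicClosure (LaurentSeries L)))
    (alphaG L hle).toRingHom ((qExpand L p).comp (natEmbG L F₀)) hfin
    (isSeparable_alongG _ hfin) hcard (famAlphaG p ι₀ ζ)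
    (fun c x => by
      rw [AlgHom.toRingHom_eq_coe, RingHom.coe_coe, RingHom.comp_apply, natEmbG_apply]
      cases c with
      | none => rw [famAlphaG_none, coe_alphaG]
      | some i => rw [famAlphaG_some, hι₀, towerTwist_qExpand_of_pow_eq_one hζ])
    hinj y
  rw [RingHom.comp_apply, natEmbG_apply] at key
  exact key

/-- **The norm formula along `α`**: `(Norm_α y)(t^p) = y(t^p) * ∏_{b<p} (ι₀ y)(ζ^b t)`. -/
theorem normQExp_alphaG (hfin : FiniteAlong L (alphaG L hle))
    (hdeg : finrankAlong L (alphaG L hle) = p + 1)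
    (ι₀ : laurentBaseChange L F₁ →+* LaurentSeries L)
    (hι₀ : ∀ x : laurentBaseChange L F₀, ι₀ (alphaG L hle x) = qExpand L p (x : LaurentSeries L))
    {ζ : Lˣ} (hζ : ζ ^ p = 1) (hinj : Function.Injective (famAlphaG p ι₀ ζ))
    (y : laurentBaseChange L F₁) :
    qExpand L p ((Kummer.normAlong (alphaG L hle) y : laurentBaseChange L F₀) : LaurentSeries L)
      = qExpand L p (y : LaurentSeries L) *
          ∏ b ∈ Finset.range p, Kummer.twist (ζ ^ b) (ι₀ y) := by
  rw [qExpand_normAlong_alphaG hle hfin hdeg ι₀ hι₀ hζ hinj y, Fintype.prod_option,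
    famAlphaG_none, ← Fin.prod_univ_eq_prod_range (fun b => Kummer.twist (ζ ^ b) (ι₀ y)) p]
  refine congrArg _ (Finset.prod_congr rfl fun i _ => ?_)
  rw [famAlphaG_some, kummerTwist_eq_towerTwist]

variable {hle}
variable {hq : ∀ y ∈ F₀, qExpand ℚ p y ∈ F₁}

/-- **The norm formula (C1') with diamond twist.**  If the second embedding satisfies
`ι₀ (β v) = δ v` (for `Γ₁(M)`: `δ` = a diamond automorphism, as Laurent series), then with
`t^p = q`:  `(Norm_α (β u))(t^p) = u(t^(p²)) * ∏_{b<p} (δ u)(ζ^b t)`. -/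
theorem normQExp_hecke (hp : 2 ≤ p) (hfin : FiniteAlong L (alphaG L hle))
    (hdeg : finrankAlong L (alphaG L hle) = p + 1)
    (ι₀ : laurentBaseChange L F₁ →+* LaurentSeries L)
    (hι₀ : ∀ x : laurentBaseChange L F₀, ι₀ (alphaG L hle x) = qExpand L p (x : LaurentSeries L))
    (δ : laurentBaseChange L F₀ → LaurentSeries L)
    (hδ : ∀ v : laurentBaseChange L F₀, ι₀ (betaG L p hq v) = δ v)
    {ζ : Lˣ} (hζ : IsPrimitiveRoot ζ p)
    (jv : laurentBaseChange L F₀) (hjv : (jv : LaurentSeries L) = jS L 1 1)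
    (hδj : δ jv = jS L 1 1) (u : laurentBaseChange L F₀) :
    qExpand L p ((Kummer.normAlong (alphaG L hle) (betaG L p hq u) : laurentBaseChange L F₀) :
        LaurentSeries L)
      = qExpand L (p * p) (u : LaurentSeries L) *
          ∏ b ∈ Finset.range p, Kummer.twist (ζ ^ b) (δ u) := by
  have hp0 : p ≠ 0 := NeZero.ne p
  have hinj : Function.Injective (famAlphaG p ι₀ (ζ : Lˣ)) :=
    famAlphaG_injective_of_j hp ι₀ hζ (betaG L p hq jv)
      (by rw [coe_betaG, hjv, ← expand_eq_qExpand, expand_jS hp0 one_ne_zero, mul_one])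
      (by rw [hδ, hδj])
  rw [normQExp_alphaG hle hfin hdeg ι₀ hι₀ hζ.pow_eq_one hinj, coe_betaG, qExpand_qExpand]
  refine congrArg _ (Finset.prod_congr rfl fun b _ => ?_)
  rw [hδ]

end Main

end Fermat.Agent.S48x.HeckeFF
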