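import Fermat.Agent.S48x.HeckeFF.StdHecke
import Fermat.Agent.S48x.Kummer1.Export

/-!
# P-S48 (Deligne-Serre), G1: bridge KUMMER1 ⇒ (b2) ⇒ the Eichler-Shimura field of `JSide1`

Generic in the rational model fields `F₀ ≤ F₁ ⊆ ℚ((q))`.

* `eichlerShimura_naive` : `Kummer1.frobenius_quadratic_of_torsion_diamond_root` restated with the
  `HeckeFF` names: `picAut δ (σ² x) - heckeG I (σ x) + p x = 0` on `m`-torsion (`I : FFInputs β α`).
* `eichlerShimura_std` : the standard shape `σ² x - T (⟨p⟩ (σ x)) + p ⟨p⟩ x = 0`,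
  `⟨p⟩ = picAut δ⁻¹`, i.e. the relation for `T_p := heckeG I ∘ picAut δ⁻¹` (`JSide1.eichlerShimura`
  with `diamInv = false`, `TJ p := heckeG I ∘ DJ (unit p)`, `DJ (unit p) := picAut δ⁻¹`).
  Only the commutation of `δ` with the Galois action is used.
* `eichlerShimura_heckeStd` : the same for `T_p := heckeStd J` (a single correspondence).
-/

set_option autoImplicit false
set_option linter.unusedSectionVars false
set_option linter.style.haveILetI false

noncomputable section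

open ModularCurve AlgebraicCurve IntermediateField

namespace Fermat.Agent.S48x.HeckeFF

open Fermat.Agent.Gateway.Hecke Fermat.Agent.Gateway.Kummer

variable {L : Type*} [Field L] [Algebra ℚ L]
variable {F₀ F₁ : IntermediateField ℚ (LaurentSeries ℚ)} {p : ℕ} [NeZero p] [Fact p.Prime]
variable {hle : F₀ ≤ F₁} {hq : ∀ y ∈ F₀, qExpand ℚ p y ∈ F₁}
variable {δ : laurentBaseChange L F₀ ≃ₐ[L] laurentBaseChange L F₀}

/-- `DiamondGaloisCommute` in the orientation used by `HeckeFF`. -/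
theorem galois_comm_of_diamondGaloisCommute (hδ : Kummer1.DiamondGaloisCommute F₀ δ)
    (σ : L ≃ₐ[ℚ] L) (u : laurentBaseChange L F₀) :
    arithmeticGalois F₀ σ • δ u = δ (arithmeticGalois F₀ σ • u) := (hδ σ u).symm

/-- **Eichler-Shimura for the naive correspondence** `T = α_* V_p^*` with diamond twist:
`δ σ² x - T (σ x) + p x = 0` on `m`-torsion, for every Frobenius lift `σ` at `A ∣ p`. -/
theorem eichlerShimura_naive (I : FFInputs (betaG L p hq) (alphaG L hle)) {m : ℕ} (hm : m ≠ 0)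
    (A : ValuationSubring L) (hA : A.LiesOverPrime p)
    (ζ : Lˣ) (hprim : IsPrimitiveRoot ζ p)
    (hC1 : Kummer1.NormQExpFormulaD F₀ (alphaG L hle) (betaG L p hq) p δ ζ)
    (hδ : Kummer1.DiamondGaloisCommute F₀ δ)
    (hnorm : Kummer1.GaussNormalisable F₀ A) (hC0 : Kummer1.KummerRedInj F₀ A m)
    (σ : L ≃ₐ[ℚ] L) (hσ : A.IsFrobeniusAt σ p)
    {x : Pic0 L (laurentBaseChange L F₀)} (hx : (m : ℤ) • x = 0) :
    picAut δ (σ • σ • x) - heckeG I (σ • x) + p • x = 0 := by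
  haveI := I.pd'
  haveI := I.pd
  exact Kummer1.frobenius_quadratic_of_torsion_diamond_root F₀ (alphaG L hle) (betaG L p hq) p δ
    hm A hA I.intφ I.intψ I.fiφ I.finψ I.nfψ ζ hprim hC1 hδ hnorm hC0 σ hσ hx

/-- From the naive relation on `m`-torsion to the standard shape (no Hecke-diamond commutation
needed). -/
theorem quadratic_comp_of_naive (I : FFInputs (betaG L p hq) (alphaG L hle)) (σ : L ≃ₐ[ℚ] L)
    (hδσ : ∀ u, arithmeticGalois F₀ σ • δ u = δ (arithmeticGalois F₀ σ • u))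
    {m : ℕ}
    (hES : ∀ y : Pic0 L (laurentBaseChange L F₀), (m : ℤ) • y = 0 →
      picAut δ (σ • σ • y) - heckeG I (σ • y) + p • y = 0)
    {x : Pic0 L (laurentBaseChange L F₀)} (hx : (m : ℤ) • x = 0) :
    σ • σ • x - heckeG I (picAut δ.symm (σ • x)) + p • picAut δ.symm x = 0 := by
  have hy : (m : ℤ) • picAut δ.symm x = 0 := by rw [← map_zsmul, hx, map_zero]
  have h := hES _ hy
  rw [galois_picAut_symm_comm σ hδσ, galois_picAut_symm_comm σ hδσ, picAut_picAut_symm] at h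
  exact h

/-- **Eichler-Shimura in standard shape** for `T_p := heckeG I ∘ picAut δ⁻¹`:
`σ² x - T_p (σ x) + p ⟨p⟩ x = 0`, `⟨p⟩ = picAut δ⁻¹`. -/
theorem eichlerShimura_std (I : FFInputs (betaG L p hq) (alphaG L hle)) {m : ℕ} (hm : m ≠ 0)
    (A : ValuationSubring L) (hA : A.LiesOverPrime p)
    (ζ : Lˣ) (hprim : IsPrimitiveRoot ζ p)
    (hC1 : Kummer1.NormQExpFormulaD F₀ (alphaG L hle) (betaG L p hq) p δ ζ)
    (hδ : Kummer1.DiamondGaloisCommute F₀ δ)
    (hnorm : Kummer1.GaussNormalisable F₀ A) (hC0 : Kummer1.KummerRedInj F₀ A m)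
    (σ : L ≃ₐ[ℚ] L) (hσ : A.IsFrobeniusAt σ p)
    {x : Pic0 L (laurentBaseChange L F₀)} (hx : (m : ℤ) • x = 0) :
    σ • σ • x - heckeG I (picAut δ.symm (σ • x)) + p • picAut δ.symm x = 0 :=
  quadratic_comp_of_naive I σ (galois_comm_of_diamondGaloisCommute hδ σ)
    (fun _ hy => eichlerShimura_naive I hm A hA ζ hprim hC1 hδ hnorm hC0 σ hσ hy) hx

/-- The same for the standard Hecke correspondence `heckeStd J` (`= α_* (V_p ∘ δ⁻¹)^*`). -/
theorem eichlerShimura_heckeStd (I : FFInputs (betaG L p hq) (alphaG L hle))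
    (J : FFInputs (betaStd hq δ) (alphaG L hle)) {m : ℕ} (hm : m ≠ 0)
    (A : ValuationSubring L) (hA : A.LiesOverPrime p)
    (ζ : Lˣ) (hprim : IsPrimitiveRoot ζ p)
    (hC1 : Kummer1.NormQExpFormulaD F₀ (alphaG L hle) (betaG L p hq) p δ ζ)
    (hδ : Kummer1.DiamondGaloisCommute F₀ δ)
    (hnorm : Kummer1.GaussNormalisable F₀ A) (hC0 : Kummer1.KummerRedInj F₀ A m)
    (σ : L ≃ₐ[ℚ] L) (hσ : A.IsFrobeniusAt σ p)
    {x : Pic0 L (laurentBaseChange L F₀)} (hx : (m : ℤ) • x = 0) :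
    σ • σ • x - heckeStd J (σ • x) + p • picAut δ.symm x = 0 :=
  quadratic_heckeStd I J σ (galois_comm_of_diamondGaloisCommute hδ σ) hm
    (fun _ hy => eichlerShimura_naive I hm A hA ζ hprim hC1 hδ hnorm hC0 σ hσ hy) hx

end Fermat.Agent.S48x.HeckeFF
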