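import Mathlib
import Fermat.Agent.S27x.Theta.Main
import Fermat.Agent.Gateway.Kummer.Basic
import Fermat.Agent.S48x.HeckeFF.Pair
import Fermat.Agent.S48x.G1.Theta.HeckeCore1
import Fermat.Agent.S48x.G1.Hecke.CohChar1

/-!
# P-S48, G1 (B4): `θ` intertwines the Hecke correspondence and the diamond automorphisms on
`Pic⁰[m]` with `heckeCharHom1`, `diamCharHom` on characters of `±Γ₁(M)` (HK3 clone, helper4)

`θ = S27x.Theta.thetaFun I m : Pic⁰(F)[m] → (Γ →* μ_m)` for a dictionary input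
`I : DictInputG Γ N F` (`F` a function field over `ℂ` embedded in `MerFun`).

* `thetaFun_eq_of_law` : the abstract transport principle: an additive operator `T` on `Pic⁰`
  acting on Kummer representatives through `Tf`, with `I.emb (Tf f) = P (I.emb f)` for a
  multiplicative `P : MerFun → MerFun` turning `χ`-eigenfunctions into `Ψ χ`-eigenfunctions,
  satisfies `θ (T x) = Ψ (θ x)`.
* `thetaFun_corrOf` : for `Γ = ±Γ₁(M)`, a correspondence `corrOf J = ψ_* φ^*` and the norm-product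
  formula `NormProdFormula1` (`I.emb (Norm_ψ (φ f)) = heckeProd1 t (I.emb f)`):
  `θ (corrOf J x) = heckeCharHom1 (θ x)`.
* `thetaFun_smul` : for a semilinear automorphism `g` with `I.emb (g • f) = τ⁻¹ • I.emb f`,
  `τ ∈ Γ₀(M)`: `θ (g • x) = diamCharHom τ (θ x)`.
* `theta_corrOf`, `theta_smul` : the same for the bundled `theta`, with `heckeChar1`, `diamChar`.
-/

set_option autoImplicit false
set_option linter.unusedSectionVars false
set_option linter.style.haveILetI false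

open UpperHalfPlane CongruenceSubgroup Matrix.SpecialLinearGroup
open scoped MatrixGroups
open AlgebraicCurve

namespace Fermat.Agent.S48x.HeckeFF.ThetaEq

open Fermat.Agent.S24 Fermat.Agent.S24.MerFun Fermat.Agent.Gateway.Root
open Fermat.Agent.Gateway.Kummer Fermat.Agent.Gateway.A2 Fermat.Agent.Gateway.A2.Count
open Fermat.Agent.S27x.Theta Fermat.Agent.S48x.G1 Fermat.Agent.S48x.HeckeFF

section Abstract

variable {Γ : Subgroup SL(2, ℤ)} {N : ℕ} {F : Type*} [Field F] [Algebra ℂ F]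
  (I : DictInputG Γ N F) {m : ℕ} [NeZero m]

/-- **Transport principle.** -/
theorem thetaFun_eq_of_law (T : Pic0 ℂ F → Pic0 ℂ F) (Tf : F → F) (P : MerFun → MerFun)
    (Ψ : (Γ →* rootsOfUnity m ℂ) → (Γ →* rootsOfUnity m ℂ))
    (hK : ∀ (x : Pic0 ℂ F) (u : F), IsKummerRep m x u → IsKummerRep m (T x) (Tf u))
    (hD5 : ∀ f : F, I.emb (Tf f) = P (I.emb f))
    (hPpow : ∀ h : MerFun, P (h ^ m) = P h ^ m)
    (hlaw : ∀ (h : MerFun) (χ : Γ →* rootsOfUnity m ℂ),
      (∀ γ : Γ, (γ : SL(2, ℤ))⁻¹ • h = cst (((χ γ : rootsOfUnity m ℂ) : ℂˣ) : ℂ) * h) →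
      ∀ γ : Γ, (γ : SL(2, ℤ))⁻¹ • P h = cst ((((Ψ χ) γ : rootsOfUnity m ℂ) : ℂˣ) : ℂ) * P h)
    (x y : Pic0.torsion ℂ F m) (hy : (y : Pic0 ℂ F) = T (x : Pic0 ℂ F)) :
    thetaFun I m y = Ψ (thetaFun I m x) := by
  obtain ⟨D, f, h, hD, H⟩ := exists_isRoot I (NeZero.pos m) x.1 x.2
  have hKx : IsKummerRep m (x : Pic0 ℂ F) f := ⟨H.ne_zero, D, hD, H.div_eq⟩
  obtain ⟨hne, D', hD', hdiv⟩ := hK _ _ hKx
  have H' : IsRootG I m (⇑(D' : Divisor ℂ F)) (Tf f) (P h) :=
    ⟨hne, hdiv, by rw [← hPpow, H.pow_eq, hD5]⟩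
  rw [thetaFun_eq I y H' (by rw [hD', hy]), thetaFun_eq I x H hD, IsRootG.char_eq_iff]
  exact hlaw h H.char (fun γ => H.char_spec γ)

end Abstract

section Gamma1pm

variable {M p : ℕ} [NeZero M] [Fact p.Prime] (hpM : ¬ p ∣ M) (t : Twist M p)
variable {N : ℕ} {F F' : Type*} [Field F] [Field F'] [Algebra ℂ F] [Algebra ℂ F']
  (I : DictInputG (Gamma1pm M) N F) {m : ℕ} [NeZero m]

/-! ### The Hecke correspondence -/

/-- **D5 for `±Γ₁(M)`** (as a hypothesis): the embedding into `MerFun` turns the multiplicative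
Hecke operator `Norm_ψ ∘ φ` on functions into the Hecke product `heckeProd1 t`. -/
def NormProdFormula1 {φ ψ : F →ₐ[ℂ] F'} (J : FFInputs φ ψ) : Prop :=
  haveI := J.pd'
  ∀ f : F, I.emb (normAlong ψ (φ f)) = heckeProd1 t (I.emb f)

/-- The correspondence `ψ_* φ^*` acts on Kummer representatives through `Norm_ψ ∘ φ`. -/
theorem isKummerRep_corrOf {φ ψ : F →ₐ[ℂ] F'} (J : FFInputs φ ψ) {x : Pic0 ℂ F} {u : F}
    (hx : IsKummerRep m x u) :
    haveI := J.pd'
    IsKummerRep m (corrOf J x) (normAlong ψ (φ u)) := by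
  haveI := J.pd'
  exact hx.correspondence φ ψ J.intφ J.intψ J.fiφ J.finψ J.nfψ

/-- **HK3 for `±Γ₁(M)`**, on the level of `thetaFun`. -/
theorem thetaFun_corrOf {φ ψ : F →ₐ[ℂ] F'} (J : FFInputs φ ψ) (hD5 : NormProdFormula1 t I J)
    (x y : Pic0.torsion ℂ F m) (hy : (y : Pic0 ℂ F) = corrOf J (x : Pic0 ℂ F)) :
    thetaFun I m y = heckeCharHom1 hpM t (rootsOfUnity m ℂ) (thetaFun I m x) := by
  haveI := J.pd'
  refine thetaFun_eq_of_law I (corrOf J) (fun u => normAlong ψ (φ u)) (heckeProd1 t)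
    (heckeCharHom1 hpM t (rootsOfUnity m ℂ)) (fun x u hx => isKummerRep_corrOf J hx) hD5
    (fun h => heckeProd1_pow t h m) (fun h χ hχ γ => ?_) x y hy
  rw [inv_smul_heckeProd1 hpM t (χ := fun γ => (((χ γ : rootsOfUnity m ℂ) : ℂˣ) : ℂ)) hχ γ,
    heckeCharHom1_apply]
  congr 2
  rw [SubmonoidClass.coe_finsetProd, Units.coe_prod]

/-- An additive endomorphism of `Pic⁰` restricted to the `m`-torsion. -/
noncomputable def torsionMap (T : Pic0 ℂ F →+ Pic0 ℂ F) (m : ℕ) :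
    Pic0.torsion ℂ F m →+ Pic0.torsion ℂ F m :=
  (T.comp (Pic0.torsion ℂ F m).subtype).codRestrict
    (Pic0.torsion ℂ F m) (fun x => by
      rw [Pic0.mem_torsion]
      have hx : (m : ℤ) • (x : Pic0 ℂ F) = 0 := Pic0.mem_torsion.mp x.2
      show (m : ℤ) • T (x : Pic0 ℂ F) = 0
      rw [← map_zsmul, hx, map_zero])

@[simp] theorem coe_torsionMap (T : Pic0 ℂ F →+ Pic0 ℂ F) (m : ℕ) (x : Pic0.torsion ℂ F m) :
    ((torsionMap T m x : Pic0.torsion ℂ F m) : Pic0 ℂ F) = T (x : Pic0 ℂ F) := rfl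

/-- **HK3 for `±Γ₁(M)`.**  `θ (T_p x) = heckeChar1 (θ x)`. -/
theorem theta_corrOf (hN : 0 < N) {φ ψ : F →ₐ[ℂ] F'} (J : FFInputs φ ψ)
    (hD5 : NormProdFormula1 t I J) (x : Pic0.torsion ℂ F m) :
    theta I hN (torsionMap (corrOf J) m x) =
      Additive.ofMul (heckeChar1 hpM t (rootsOfUnity m ℂ) (Additive.toMul (theta I hN x))) := by
  apply Additive.toMul.injective
  apply Subtype.ext
  rw [theta_apply, toMul_ofMul, heckeChar1_coe, theta_apply]
  exact thetaFun_corrOf hpM t I J hD5 x (torsionMap (corrOf J) m x) rfl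

/-! ### Diamond automorphisms -/

/-- **Diamond twin of HK3**, on the level of `thetaFun`: a semilinear automorphism `g` of `F`
which corresponds to `τ ∈ Γ₀(M)` under the embedding acts on `θ` by `diamCharHom τ`. -/
theorem thetaFun_smul (τ : Gamma0 M) (g : SemilinearAut ℂ F)
    (hg : ∀ f : F, I.emb (g • f) = (τ : SL(2, ℤ))⁻¹ • I.emb f)
    (x y : Pic0.torsion ℂ F m) (hy : (y : Pic0 ℂ F) = g • (x : Pic0 ℂ F)) :
    thetaFun I m y = diamCharHom τ (rootsOfUnity m ℂ) (thetaFun I m x) := by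
  refine thetaFun_eq_of_law I (fun x => g • x) (fun u => g • u)
    (fun h => (τ : SL(2, ℤ))⁻¹ • h) (diamCharHom τ (rootsOfUnity m ℂ))
    (fun x u hx => hx.smul g) hg (fun h => smul_pow' _ h m) (fun h χ hχ γ => ?_) x y hy
  rw [inv_smul_diam (χ := fun γ => (((χ γ : rootsOfUnity m ℂ) : ℂˣ) : ℂ)) hχ τ γ,
    diamCharHom_apply]

/-- **Diamond twin of HK3.**  `θ (g • x) = diamChar τ (θ x)`. -/
theorem theta_smul (hN : 0 < N) (τ : Gamma0 M) (g : SemilinearAut ℂ F)
    (hg : ∀ f : F, I.emb (g • f) = (τ : SL(2, ℤ))⁻¹ • I.emb f) (x : Pic0.torsion ℂ F m) :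
    theta I hN (g • x) =
      Additive.ofMul (diamChar τ (rootsOfUnity m ℂ) (Additive.toMul (theta I hN x))) := by
  apply Additive.toMul.injective
  apply Subtype.ext
  rw [theta_apply, toMul_ofMul, diamChar_coe, theta_apply]
  exact thetaFun_smul I τ g hg x (g • x) (SemilinearAut.coe_torsion_smul g x)

end Gamma1pm

end Fermat.Agent.S48x.HeckeFF.ThetaEq
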