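import Mathlib
import Fermat.Agent.Gateway.Dict.NormProd
import Fermat.Agent.S48x.HeckeFF.Cosets1
import Fermat.Agent.S48x.HeckeFF.Theta

/-!
# P-S48, G1 (B4): the norm-product formula for `±Γ₁(M)` and the twisted HK3 statement (helper4)

Let `U : MerFun` be invariant under `Γ = ±Γ₁(M)`, `p ∤ M` prime, `1, γ_b` (`b < p`) the coset
representatives of `Γ / (Γ ∩ Γ₀(p))` of `HeckeFF/Cosets1.lean` and `δ = delta h ∈ Γ₀(M)` (lower
right entry `≡ p⁻¹`).  Then

`∏_x (r x) • (z ↦ U(p z)) = heckeProd1 t (U ∘ δ)`  (`prod_reps1_smul_eq_heckeProd1`),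

i.e. the product of the conjugates of `U(p z)` is the Hecke product of the DIAMOND TWIST `δ⁻¹ • U`.
Consequently, if the norm along `ψ` of `φ f` embeds as this product of conjugates
(`NormConjFormula`, the output of the analytic dictionary at level `Γ ∩ Γ₀(p)`), then
`θ (ψ_* φ^* x) = heckeCharHom1 (diamCharHom δ (θ x))` (`thetaFun_corrOf_twisted`):
the naive correspondence `(α, V_p)` is `T_p ∘ ⟨δ⟩`.
-/

set_option autoImplicit false
set_option linter.unusedSectionVars false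
set_option linter.style.haveILetI false

open UpperHalfPlane CongruenceSubgroup Matrix.SpecialLinearGroup
open scoped MatrixGroups
open AlgebraicCurve
open P2MW.S_ModularForm_heckeT_slash_eq_self_of_mem_Gamma0.ModularForm.HeckeSlashInvariance

namespace Fermat.Agent.S48x.HeckeFF.ThetaEq

open Fermat.Agent.S24 Fermat.Agent.S24.MerFun Fermat.Agent.S24.JLevel Fermat.Agent.Gateway.Root
open Fermat.Agent.Gateway.Kummer Fermat.Agent.Gateway.A2 Fermat.Agent.Gateway.A2.Count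
open Fermat.Agent.Gateway.HeckeCoh Fermat.Agent.Gateway.ThetaHecke
open Fermat.Agent.Gateway.Dict.QExpMer Fermat.Agent.Gateway.Dict.NormQExpAux
open Fermat.Agent.Gateway.Dict.NormQExpBridge Fermat.Agent.Gateway.Dict.NormProd
open Fermat.Agent.Gateway.Dict.CosetsP1
open Fermat.Agent.S27x.Theta Fermat.Agent.S48x.G1 Fermat.Agent.S48x.HeckeFF
open Fermat.Agent.S48x.Nebentypus (sRep sRep_infty sRep_coe)

variable {M p : ℕ} [NeZero M] [Fact p.Prime] (hpM : ¬ p ∣ M) (t : Twist M p)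

/-- The conjugate of `z ↦ U(p z)` by `γ` is `z ↦ (δ⁻¹ • U)((z + b) / p)` when
`diag(p,1) γ⁻¹ = δ [[1,b],[0,p]]` (no invariance of `U` needed). -/
theorem smul_smul_eq_upperGL_twist [NeZero p] (U : MerFun) {γ δ : SL(2, ℤ)} {b : ℤ}
    (h : !![(p : ℤ), 0; 0, 1] * ((γ⁻¹ : SL(2, ℤ)) : Matrix (Fin 2) (Fin 2) ℤ) =
      (δ : Matrix (Fin 2) (Fin 2) ℤ) * !![1, b; 0, (p : ℤ)]) :
    γ • ((diagGL p)⁻¹ • U) = (upperGL p (b : ℝ))⁻¹ • (δ⁻¹ • U) := by
  have h0 := glPos_identity_of_int p h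
  have h1 : HolFun.slToGLPos γ * (diagGL p)⁻¹ = (diagGL p * HolFun.slToGLPos γ⁻¹)⁻¹ := by
    rw [mul_inv_rev, map_inv, inv_inv]
  rw [sl_smul_eq_glPos, ← mul_smul, h1, h0, mul_inv_rev, mul_smul, ← map_inv, ← sl_smul_eq_glPos]

/-- **The product of the conjugates of `U(p z)` is the Hecke product of the diamond twist.** -/
theorem prod_reps1_smul_eq_heckeProd1 {U : MerFun}
    (hU : ∀ γ ∈ Gamma1pm M, γ • U = U) :
    (∏ x : Option (Fin p),
        ((reps1 ((Nat.Prime.coprime_iff_not_dvd Fact.out).mpr hpM) x : Gamma1pm M) : SL(2, ℤ)) •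
          ((diagGL p)⁻¹ • U)) =
      heckeProd1 t ((delta ((Nat.Prime.coprime_iff_not_dvd (Fact.out : p.Prime)).mpr hpM))⁻¹ • U) := by
  have hp : p.Prime := Fact.out
  haveI : NeZero p := ⟨hp.ne_zero⟩
  set h := (Nat.Prime.coprime_iff_not_dvd hp).mpr hpM with hh
  set δ : SL(2, ℤ) := delta h with hδ
  set V : MerFun := δ⁻¹ • U with hV
  -- the left hand side
  have hL : (∏ x : Option (Fin p), ((reps1 h x : Gamma1pm M) : SL(2, ℤ)) • ((diagGL p)⁻¹ • U)) =
      ((diagGL p)⁻¹ • U) * ∏ b : Fin p, (upperGL p ((b : ℕ) : ℝ))⁻¹ • V := by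
    rw [Fintype.prod_option, reps1_none, Subgroup.coe_one, one_smul]
    congr 1
    refine Finset.prod_congr rfl fun b _ => ?_
    rw [reps1_some, coe_rep1G]
    have := smul_smul_eq_upperGL_twist U (diag_mul_rep_inv h ((b : ℕ) : ℤ))
    rw [this, Int.cast_natCast]
  -- the right hand side
  have hR : heckeProd1 t V =
      ((diagGL p)⁻¹ • U) * ∏ b : Fin p, (upperGL p ((b : ℕ) : ℝ))⁻¹ • V := by
    rw [heckeProd1]
    have h1 : ∏ x : OnePoint (ZMod p), (rep1Pos t x)⁻¹ • V =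
        ((rep1Pos t OnePoint.infty)⁻¹ • V) *
          ∏ j : ZMod p, (rep1Pos t (j : OnePoint (ZMod p)))⁻¹ • V :=
      Fintype.prod_option (fun x : OnePoint (ZMod p) => (rep1Pos t x)⁻¹ • V)
    rw [h1]
    congr 1
    · -- the cusp `∞`
      have e : rep1Pos t OnePoint.infty = HolFun.slToGLPos t.σ * diagGL p := by
        rw [rep1Pos, sRep_infty, heckeRepPos_infty]
      have hinv : (HolFun.slToGLPos t.σ)⁻¹ • V = U := by
        rw [← map_inv, ← sl_smul_eq_glPos, hV, ← mul_smul, ← mul_inv_rev]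
        exact hU _ ((Gamma1pm M).inv_mem (delta_mul_mem_Gamma1pm h t.mem t.lr_eq))
      rw [e, mul_inv_rev, mul_smul, hinv]
    · -- the finite points
      have e1 : ∏ b : Fin p, (upperGL p ((b : ℕ) : ℝ))⁻¹ • V =
          ∏ b ∈ Finset.range p, (upperGL p (b : ℝ))⁻¹ • V :=
        Fin.prod_univ_eq_prod_range (fun b : ℕ => (upperGL p (b : ℝ))⁻¹ • V) p
      have e2 : ∏ j : ZMod p, (upperGL p ((j.val : ℕ) : ℝ))⁻¹ • V =
          ∏ b ∈ Finset.range p, (upperGL p (b : ℝ))⁻¹ • V :=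
        prod_zmod_val p (fun b : ℕ => (upperGL p (b : ℝ))⁻¹ • V)
      rw [e1, ← e2]
      refine Finset.prod_congr rfl fun j _ => ?_
      have e : rep1Pos t (j : OnePoint (ZMod p)) = upperGL p ((j.val : ℕ) : ℝ) := by
        rw [rep1Pos, sRep_coe, map_one, one_mul, heckeRepPos_coe]
      rw [e]
  rw [hL, hR]

section Theta

variable {N : ℕ} {F F' : Type*} [Field F] [Field F'] [Algebra ℂ F] [Algebra ℂ F']
  (I : DictInputG (Gamma1pm M) N F) {m : ℕ} [NeZero m]

/-- **The analytic norm formula at level `Γ ∩ Γ₀(p)`** (as a hypothesis; output of the dictionary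
at level `±Γ₁(M) ∩ Γ₀(p)` via `Dict/NormAlpha.finrank_and_norm_along`): the norm along `ψ` of
`φ f` embeds as the product of the conjugates of `z ↦ (I.emb f)(p z)` over the coset
representatives `reps1`. -/
def NormConjFormula {φ ψ : F →ₐ[ℂ] F'} (J : FFInputs φ ψ) : Prop :=
  haveI := J.pd'
  ∀ f : F, I.emb (normAlong ψ (φ f)) =
    ∏ x : Option (Fin p),
      ((reps1 ((Nat.Prime.coprime_iff_not_dvd (Fact.out : p.Prime)).mpr hpM) x : Gamma1pm M) :
        SL(2, ℤ)) • ((diagGL p)⁻¹ • I.emb f)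

/-- The element `δ ∈ Γ₀(M)` (lower right entry `≡ p⁻¹ mod M`) of the diamond twist. -/
noncomputable def twDelta : Gamma0 M :=
  ⟨delta ((Nat.Prime.coprime_iff_not_dvd (Fact.out : p.Prime)).mpr hpM), delta_mem _⟩

theorem coe_twDelta :
    ((twDelta hpM : Gamma0 M) : SL(2, ℤ)) =
      delta ((Nat.Prime.coprime_iff_not_dvd (Fact.out : p.Prime)).mpr hpM) := rfl

/-- `lr δ * p = 1`. -/
theorem lr_twDelta_mul : lr M ((twDelta hpM : Gamma0 M) : SL(2, ℤ)) * (p : ZMod M) = 1 := by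
  obtain ⟨t⟩ := nonempty_twist M p hpM
  have h := delta_mul_mem_Gamma1pm ((Nat.Prime.coprime_iff_not_dvd (Fact.out : p.Prime)).mpr hpM)
    t.mem t.lr_eq
  have h2 : lr M (delta ((Nat.Prime.coprime_iff_not_dvd (Fact.out : p.Prime)).mpr hpM) * t.σ) = 1 := by
    rw [lr_mul (delta_mem _), t.lr_eq]
    have h1 : lr M (delta ((Nat.Prime.coprime_iff_not_dvd (Fact.out : p.Prime)).mpr hpM)) =
        ((sB M p : ℤ) : ZMod M) := by simp [lr, coe_delta]
    rw [h1]
    have h2 := congrArg (fun z : ℤ => (z : ZMod M))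
      (bezout M p ((Nat.Prime.coprime_iff_not_dvd (Fact.out : p.Prime)).mpr hpM))
    simp only [Int.cast_sub, Int.cast_mul, Int.cast_natCast, ZMod.natCast_self, zero_mul,
      sub_zero, Int.cast_one] at h2
    rw [mul_comm]
    exact h2
  rw [coe_twDelta, ← t.lr_eq, ← lr_mul (delta_mem _)]
  exact h2

/-- **Twisted D5**: `I.emb (Norm_ψ (φ f)) = heckeProd1 t (δ⁻¹ • I.emb f)`. -/
theorem emb_norm_eq_heckeProd1_twist {φ ψ : F →ₐ[ℂ] F'} (J : FFInputs φ ψ)
    (hconj : NormConjFormula hpM I J) (f : F) :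
    haveI := J.pd'
    I.emb (normAlong ψ (φ f)) =
      heckeProd1 t (((twDelta hpM : Gamma0 M) : SL(2, ℤ))⁻¹ • I.emb f) := by
  haveI := J.pd'
  rw [hconj f, prod_reps1_smul_eq_heckeProd1 hpM t (fun γ hγ => I.emb_fixed γ hγ f)]
  rfl

/-- **HK3 for the naive correspondence** `(α, V_p)` on `±Γ₁(M)`:
`θ (ψ_* φ^* x) = T_p (⟨δ⟩ (θ x))`, `δ ∈ Γ₀(M)` with lower right entry `≡ p⁻¹`. -/
theorem thetaFun_corrOf_twisted {φ ψ : F →ₐ[ℂ] F'} (J : FFInputs φ ψ)
    (hconj : NormConjFormula hpM I J)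
    (x y : Pic0.torsion ℂ F m) (hy : (y : Pic0 ℂ F) = corrOf J (x : Pic0 ℂ F)) :
    thetaFun I m y =
      heckeCharHom1 hpM t (rootsOfUnity m ℂ)
        (diamCharHom (twDelta hpM) (rootsOfUnity m ℂ) (thetaFun I m x)) := by
  haveI := J.pd'
  refine thetaFun_eq_of_law I (corrOf J) (fun u => normAlong ψ (φ u))
    (fun h => heckeProd1 t (((twDelta hpM : Gamma0 M) : SL(2, ℤ))⁻¹ • h))
    (fun χ => heckeCharHom1 hpM t (rootsOfUnity m ℂ)
      (diamCharHom (twDelta hpM) (rootsOfUnity m ℂ) χ))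
    (fun x u hx => isKummerRep_corrOf J hx)
    (fun f => emb_norm_eq_heckeProd1_twist hpM t I J hconj f)
    (fun h => by rw [smul_pow', heckeProd1_pow]) (fun h χ hχ γ => ?_) x y hy
  have h1 : ∀ γ : Gamma1pm M,
      (γ : SL(2, ℤ))⁻¹ • (((twDelta hpM : Gamma0 M) : SL(2, ℤ))⁻¹ • h) =
        cst ((fun γ => ((((diamCharHom (twDelta hpM) (rootsOfUnity m ℂ) χ) γ :
          rootsOfUnity m ℂ) : ℂˣ) : ℂ)) γ) * (((twDelta hpM : Gamma0 M) : SL(2, ℤ))⁻¹ • h) :=
    fun γ => inv_smul_diam (χ := fun γ => (((χ γ : rootsOfUnity m ℂ) : ℂˣ) : ℂ)) hχ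
      (twDelta hpM) γ
  rw [inv_smul_heckeProd1 hpM t h1 γ, heckeCharHom1_apply]
  congr 2
  rw [SubmonoidClass.coe_finsetProd, Units.coe_prod]

/-- **HK3 for the naive correspondence**, bundled: `θ (T x) = heckeChar1 (diamChar δ (θ x))`. -/
theorem theta_corrOf_twisted (hN : 0 < N) {φ ψ : F →ₐ[ℂ] F'} (J : FFInputs φ ψ)
    (hconj : NormConjFormula hpM I J) (x : Pic0.torsion ℂ F m) :
    theta I hN (torsionMap (corrOf J) m x) =
      Additive.ofMul (heckeChar1 hpM t (rootsOfUnity m ℂ)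
        (diamChar (twDelta hpM) (rootsOfUnity m ℂ) (Additive.toMul (theta I hN x)))) := by
  apply Additive.toMul.injective
  apply Subtype.ext
  rw [theta_apply, toMul_ofMul, heckeChar1_coe, diamChar_coe, theta_apply]
  exact thetaFun_corrOf_twisted hpM t I J hconj x (torsionMap (corrOf J) m x) rfl

end Theta

end Fermat.Agent.S48x.HeckeFF.ThetaEq
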