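import Mathlib
import Fermat.Agent.Gateway.Dict.NormAlpha
import Fermat.Agent.S48x.HeckeFF.NormProd1

/-!
# P-S48, G1 (B4): `NormConjFormula` from the analytic dictionary at level `±Γ₁(M) ∩ Γ₀(p)`
(helper4)

Adapter between the level-`(M; p)` embedding (layer (A7)) and the hypothesis `NormConjFormula` of
`HeckeFF/NormProd1.lean`: if `emb' : F' →+* MerFun` has exact stabiliser `±Γ₁(M) ∩ Γ₀(p)` inside
`±Γ₁(M)`, restricts to `I.emb` along `ψ`, sends `φ f` to `z ↦ (I.emb f)(p z)` and takes values in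
`cuspAllField N'`, then the norm along `ψ` is the product of the conjugates over the explicit coset
representatives `reps1`.
-/

set_option autoImplicit false
set_option linter.unusedSectionVars false
set_option linter.style.haveILetI false

open UpperHalfPlane CongruenceSubgroup Matrix.SpecialLinearGroup
open scoped MatrixGroups
open AlgebraicCurve

namespace Fermat.Agent.S48x.HeckeFF.ThetaEq

open Fermat.Agent.S24 Fermat.Agent.S24.MerFun Fermat.Agent.S24.CuspOrd Fermat.Agent.S24.JLevel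
open Fermat.Agent.Gateway.Root
open Fermat.Agent.Gateway.Kummer Fermat.Agent.Gateway.A2 Fermat.Agent.Gateway.A2.Count
open Fermat.Agent.Gateway.Dict Fermat.Agent.Gateway.Dict.NormAlpha
open Fermat.Agent.S27x.Theta Fermat.Agent.S48x.G1 Fermat.Agent.S48x.HeckeFF

variable {M p : ℕ} [NeZero M] [Fact p.Prime] (hpM : ¬ p ∣ M)
variable {N N' : ℕ} {F F' : Type*} [Field F] [Field F'] [Algebra ℂ F] [Algebra ℂ F']
  (I : DictInputG (Gamma1pm M) N F)

theorem coe_smul_merFun1 (γ : ↥(Gamma1pm M)) (x : MerFun) : γ • x = (γ : SL(2, ℤ)) • x := rfl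

/-- A `±Γ₁(M)`-invariant element all of whose translates are quotients of cusp functions of level
`N'` (a multiple of `N`) lies in the range of the level-`M` embedding. -/
theorem mem_range_of_invariant (hN' : 0 < N') (hNN' : N ∣ N') {x : MerFun}
    (hx : x ∈ cuspAllField N') (hinv : ∀ γ ∈ Gamma1pm M, γ • x = x) : x ∈ I.emb.range := by
  refine I.range x hinv fun g => ?_
  refine CuspLevel.isCuspMer_of_dvd hN' hNN' (hx g) ?_
  have h := hinv _ (I.conj_T_pow_mem g)
  calc ModularGroup.T ^ N • g • x = g • ((g⁻¹ * ModularGroup.T ^ N * g) • x) := by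
        rw [← mul_smul, ← mul_smul, mul_assoc, mul_inv_cancel_left]
    _ = g • x := by rw [h]

/-- **The adapter.** -/
theorem normConjFormula_of_emb {φ ψ : F →ₐ[ℂ] F'} (J : FFInputs φ ψ) (emb' : F' →+* MerFun)
    (hψ : ∀ e : F, emb' (ψ e) = I.emb e)
    (hφ : ∀ e : F, emb' (φ e) = (diagGL p)⁻¹ • I.emb e)
    (hfix : ∀ γ : SL(2, ℤ), γ ∈ Gamma1pm M → γ ∈ Gamma0 p → ∀ f : F', γ • emb' f = emb' f)
    (hstab : ∀ γ : SL(2, ℤ), γ ∈ Gamma1pm M → (∀ f : F', γ • emb' f = emb' f) → γ ∈ Gamma0 p)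
    (hN' : 0 < N') (hNN' : N ∣ N') (hcusp : ∀ f : F', emb' f ∈ cuspAllField N') :
    NormConjFormula hpM I J := by
  haveI := J.pd'
  have hp : p.Prime := Fact.out
  haveI : CharZero F := charZero_of_injective_algebraMap (algebraMap ℂ F).injective
  haveI : Finite (↥(Gamma1pm M) ⧸ sub1 M p) := by
    apply Nat.finite_of_card_ne_zero
    rw [card_quot1 hp hpM]
    exact Nat.succ_ne_zero p
  haveI : Fintype (↥(Gamma1pm M) ⧸ sub1 M p) := Fintype.ofFinite _
  have hfix' : ∀ γ ∈ sub1 M p, ∀ f : F', γ • emb' f = emb' f := fun γ hγ f =>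
    hfix γ γ.2 (Subgroup.mem_subgroupOf.mp hγ) f
  obtain ⟨-, -, hnorm⟩ := finrank_and_norm_along (K := ℂ) ψ (sub1 M p) emb' I.emb hψ hfix'
    (fun γ h => Subgroup.mem_subgroupOf.mpr (hstab γ γ.2 h))
    (fun g e => by rw [coe_smul_merFun1, I.emb_fixed g g.2])
    (cuspAllField N').toSubring
    (fun g f => smul_mem_cuspAllField (hcusp f) g)
    (fun x hx hinv => mem_range_of_invariant I hN' hNN' hx (fun γ hγ => hinv ⟨γ, hγ⟩))
  intro f
  rw [hnorm (φ f)]
  have hbij := reps1_bijective (M := M) hp hpM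
  rw [← Fintype.prod_bijective _ hbij
    (fun x : Option (Fin p) =>
      ((reps1 ((Nat.Prime.coprime_iff_not_dvd hp).mpr hpM) x : Gamma1pm M) : SL(2, ℤ)) •
        ((diagGL p)⁻¹ • I.emb f)) _ (fun x => ?_)]
  rw [RangeAbs.conj_mk, coe_smul_merFun1, hφ]

end Fermat.Agent.S48x.HeckeFF.ThetaEq
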