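import Mathlib
import Fermat.Agent.S27x.A.Final
import Fermat.Agent.S48x.Ana.LevelP
import Fermat.Agent.S48x.HeckeFF.NormConj1

/-!
# P-S48, G1 (B4): θ-equivariance of the naive Hecke correspondence, instantiated (helper4)

Composition of

* helper48's analytic dictionary at level `±Γ₁(M) ∩ Γ₀(p)` (`Ana/LevelP.lean`, `embDataP1`),
* the adapter `ThetaEq.normConjFormula_of_emb` (`HeckeFF/NormConj1.lean`),
* the twisted `HK3` clone `ThetaEq.theta_corrOf_twisted` (`HeckeFF/NormProd1.lean`).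

Input: the level-`M` dictionary `D0 : EmbData ℂ (F₀)_ℂ id x0 (±Γ₁(M))` with its `q`-expansion link
`hQ` and cusp-meromorphy `hcusp` (layer (A5)).  Output:

* `normConjFormula_levelField` : `NormConjFormula hpM (A.dictInput D0 hn hcusp) J` for every
  `J : FFInputs (betaL F₀ p ℂ) (alphaL F₀ p ℂ)`;
* `theta_heckeL` : `θ (T_p^naive x) = heckeChar1 (diamChar δ (θ x))` for the naive Hecke
  correspondence `heckeL ℂ p hp hj = (incl)_* (V_p)^*`, `δ = twDelta hpM` (`lr δ * p = 1`).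
-/

set_option autoImplicit false
set_option linter.unusedSectionVars false
set_option linter.style.haveILetI false

open UpperHalfPlane CongruenceSubgroup Matrix.SpecialLinearGroup
open scoped MatrixGroups
open AlgebraicCurve ModularCurve IntermediateField

namespace Fermat.Agent.S48x.HeckeFF.ThetaEq

open Fermat.Agent.S24 Fermat.Agent.S24.MerFun Fermat.Agent.S24.CuspOrd Fermat.Agent.S24.JLevel
open Fermat.Agent.Gateway.Root
open Fermat.Agent.Gateway.Kummer Fermat.Agent.Gateway.A2 Fermat.Agent.Gateway.A2.Count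
open Fermat.Agent.Gateway.Dict Fermat.Agent.Gateway.Dict.NormAlpha
open Fermat.Agent.Gateway.Dict.ConjAbs Fermat.Agent.Gateway.Dict.QExpMer
open Fermat.Agent.S27x Fermat.Agent.S27x.Theta Fermat.Agent.S48x.G1 Fermat.Agent.S48x.HeckeFF
open Fermat.Agent.S48x.Ana.LevelP

variable {F₀ : IntermediateField ℚ (LaurentSeries ℚ)} {M p : ℕ} [NeZero M] [Fact p.Prime]
  (hpM : ¬ p ∣ M) {x0 : ↥(laurentBaseChange ℂ F₀)}
  (D0 : EmbData ℂ ↥(laurentBaseChange ℂ F₀) (RingHom.id ℂ) x0 (Gamma1pm M))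
  [IsCurveOver ℂ ↥(laurentBaseChange ℂ F₀)]
  {n : ℕ} (hn : 0 < n)
  (hcusp : ∀ (f : ↥(laurentBaseChange ℂ F₀)) (g : SL(2, ℤ)), IsCuspMer n (g • D0.emb f))

/-- **The analytic norm formula for the naive pair `(V_p, incl)` on `±Γ₁(M)`.** -/
theorem normConjFormula_levelField
    (hQ : ∀ f : ↥(laurentBaseChange ℂ F₀),
      HasQ (D0.emb f) (coeffMap (RingHom.id ℂ) (f : LaurentSeries ℂ)))
    (hnMp : n ∣ M * p)
    (J : FFInputs (betaL F₀ p ℂ) (alphaL F₀ p ℂ))
    [Algebra.IsAlgebraic (IntermediateField.adjoin ℂ {alphaL F₀ p ℂ x0})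
      ↥(laurentBaseChange ℂ (levelField F₀ p))] :
    NormConjFormula hpM (A.dictInput D0 hn hcusp) J := by
  have hp : p.Prime := Fact.out
  have hcop : Nat.Coprime p M := (Nat.Prime.coprime_iff_not_dvd hp).mpr hpM
  refine normConjFormula_of_emb hpM (A.dictInput D0 hn hcusp) J
    (embDataP1 p D0 hQ hcop).emb
    (fun e => embDataP1_alphaL p D0 hQ hcop e)
    (fun e => embDataP1_betaL p D0 hQ hcop e)
    (fun γ h1 h2 f => (embDataP1 p D0 hQ hcop).fixed γ (Subgroup.mem_inf.mpr ⟨h1, h2⟩) f)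
    (fun γ _ h => (Subgroup.mem_inf.mp ((embDataP1 p D0 hQ hcop).stab γ h)).2)
    (Nat.mul_pos (Nat.pos_of_ne_zero (NeZero.ne M)) hp.pos) hnMp
    (fun f => embDataP1_mem_cuspAllField p D0 hQ hcop f)

/-- The algebraicity instance needed at level `(M; p)`, from finiteness over `ℂ(j)`. -/
theorem isAlgebraic_levelField (hj : jq ∈ F₀)
    [FiniteDimensional ℂ⟮jG ℂ hj⟯ ↥(laurentBaseChange ℂ F₀)] :
    Algebra.IsAlgebraic (IntermediateField.adjoin ℂ {alphaL F₀ p ℂ (jG ℂ hj)})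
      ↥(laurentBaseChange ℂ (levelField F₀ p)) := by
  have hp : p.Prime := Fact.out
  haveI := finiteDimensional_levelField ℂ p hp hj
  rw [alphaL_jG ℂ p hj]
  exact Algebra.IsAlgebraic.of_finite _ _

/-- **HK3 for the naive Hecke correspondence `heckeL = incl_* V_p^*` on `±Γ₁(M)`**:
`θ (heckeL x) = T_p (⟨δ⟩ (θ x))`, `δ = twDelta hpM ∈ Γ₀(M)` with `lr δ * p = 1`. -/
theorem theta_heckeL (hj : jq ∈ F₀)
    [FiniteDimensional ℂ⟮jG ℂ hj⟯ ↥(laurentBaseChange ℂ F₀)]
    (D1 : EmbData ℂ ↥(laurentBaseChange ℂ F₀) (RingHom.id ℂ) (jG ℂ hj) (Gamma1pm M))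
    (hQ1 : ∀ f : ↥(laurentBaseChange ℂ F₀),
      HasQ (D1.emb f) (coeffMap (RingHom.id ℂ) (f : LaurentSeries ℂ)))
    (hcusp1 : ∀ (f : ↥(laurentBaseChange ℂ F₀)) (g : SL(2, ℤ)), IsCuspMer n (g • D1.emb f))
    (hnMp : n ∣ M * p) (t : Twist M p) {m : ℕ} [NeZero m]
    (x : Pic0.torsion ℂ ↥(laurentBaseChange ℂ F₀) m) :
    theta (A.dictInput D1 hn hcusp1) hn
        (torsionMap (heckeL ℂ p (Fact.out : p.Prime) hj) m x) =
      Additive.ofMul (heckeChar1 hpM t (rootsOfUnity m ℂ)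
        (diamChar (twDelta hpM) (rootsOfUnity m ℂ)
          (Additive.toMul (theta (A.dictInput D1 hn hcusp1) hn x)))) := by
  haveI := isAlgebraic_levelField (p := p) hj
  exact theta_corrOf_twisted hpM t (A.dictInput D1 hn hcusp1) hn
    (ffInputs_levelField ℂ p (Fact.out : p.Prime) hj)
    (normConjFormula_levelField hpM D1 hn hcusp1 hQ1 hnMp _) x

end Fermat.Agent.S48x.HeckeFF.ThetaEq
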