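import Fermat.Agent.S48x.HeckeFF.Pair
import Fermat.Agent.Gateway.Kummer.Basic

/-!
# P-S48 (Deligne-Serre), G1 layer (b2), slice (S2): diamond operators on `Pic⁰`

* `picAut δ : Pic⁰ F →+ Pic⁰ F` for a `K`-algebra automorphism `δ` of a function field `F / K`
  (through the Prelude's `SemilinearAut.ofAlgAut`); `picAutHom` (a monoid homomorphism),
  `isKummerRep_picAut` (the Kummer representative of `δ x` is `δ u`), `smul_picAut_comm`
  (commutation with a semilinear automorphism commuting with `δ` on functions), `picAut_corrOf`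
  (commutation with a correspondence intertwined with an automorphism of the upper field).
* `DiamondSys L F₀ G`: a group `G` acting on `F₀_L = laurentBaseChange L F₀` by `L`-algebra
  automorphisms commuting with the coefficientwise Galois action (for `F₀ = gamma1Field M`:
  `G = (ℤ/M)ˣ`, `⟨d⟩ (ratio1 b c b' c') = ratio1 (d b) (d c) (d b') (d c')`).  Then
  `D.pic : G →* AddMonoid.End (Pic⁰ F₀_L)`, `D.galois_pic_comm`, `D.isKummerRep_pic`,
  `D.pic_heckeG_comm` (given a compatible system on the level-`p` field).
-/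

set_option autoImplicit false
set_option linter.unusedSectionVars false
set_option linter.style.haveILetI false

noncomputable section

open ModularCurve AlgebraicCurve IntermediateField

namespace Fermat.Agent.S48x.HeckeFF

open Fermat.Agent.Gateway.Hecke Fermat.Agent.Gateway.Kummer

/-! ### Automorphisms of a function field acting on `Pic⁰` -/

section Abstract

variable {K F : Type*} [Field K] [Field F] [Algebra K F]

/-- The action of a `K`-algebra automorphism of `F` on `Pic⁰ F`. -/
def picAut (δ : F ≃ₐ[K] F) : Pic0 K F →+ Pic0 K F :=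
  DistribSMul.toAddMonoidHom (Pic0 K F) (SemilinearAut.ofAlgAut δ)

theorem picAut_apply (δ : F ≃ₐ[K] F) (x : Pic0 K F) :
    picAut δ x = SemilinearAut.ofAlgAut δ • x := rfl

theorem picAut_one_apply (x : Pic0 K F) : picAut (1 : F ≃ₐ[K] F) x = x := by
  rw [picAut_apply, map_one, one_smul]

theorem picAut_mul_apply (δ δ' : F ≃ₐ[K] F) (x : Pic0 K F) :
    picAut (δ * δ') x = picAut δ (picAut δ' x) := by
  rw [picAut_apply, picAut_apply, picAut_apply, map_mul, mul_smul]

/-- `δ ↦ picAut δ` as a monoid homomorphism. -/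
def picAutHom : (F ≃ₐ[K] F) →* AddMonoid.End (Pic0 K F) where
  toFun δ := picAut δ
  map_one' := AddMonoidHom.ext picAut_one_apply
  map_mul' δ δ' := AddMonoidHom.ext (picAut_mul_apply δ δ')

@[simp] theorem picAutHom_apply (δ : F ≃ₐ[K] F) (x : Pic0 K F) :
    picAutHom δ x = picAut δ x := rfl

/-- The Kummer representative of `δ x` is `δ u`. -/
theorem isKummerRep_picAut {m : ℕ} {x : Pic0 K F} {u : F} (h : IsKummerRep m x u)
    (δ : F ≃ₐ[K] F) : IsKummerRep m (picAut δ x) (δ u) :=
  h.smul (SemilinearAut.ofAlgAut δ)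

/-- A semilinear automorphism commuting with `δ` on functions commutes with `picAut δ`. -/
theorem smul_picAut_comm (g : SemilinearAut K F) (δ : F ≃ₐ[K] F)
    (h : ∀ u : F, g • δ u = δ (g • u)) (x : Pic0 K F) :
    g • picAut δ x = picAut δ (g • x) := by
  have hcomm : g * SemilinearAut.ofAlgAut δ = SemilinearAut.ofAlgAut δ * g := by
    apply Subtype.ext
    apply Prod.ext
    · ext u
      exact h u
    · show SemilinearAut.baseAut g * 1 = 1 * SemilinearAut.baseAut g
      rw [mul_one, one_mul]
  rw [picAut_apply, picAut_apply, ← mul_smul, hcomm, mul_smul]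

variable {F' : Type*} [Field F'] [Algebra K F'] {φ ψ : F →ₐ[K] F'}

/-- An automorphism `δ` of `F` commutes with the correspondence `ψ_* φ^*` as soon as some
automorphism `δ'` of `F'` is intertwined with `δ` by both `φ` and `ψ`. -/
theorem picAut_corrOf (I : FFInputs φ ψ) (δ : F ≃ₐ[K] F) (δ' : F' ≃ₐ[K] F')
    (hφ : ∀ u, φ (δ u) = δ' (φ u)) (hψ : ∀ u, ψ (δ u) = δ' (ψ u)) (x : Pic0 K F) :
    picAut δ (corrOf I x) = corrOf I (picAut δ x) :=
  smul_corrOf I (g := SemilinearAut.ofAlgAut δ) (g' := SemilinearAut.ofAlgAut δ')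
    (fun u => (hφ u).symm) (fun u => (hψ u).symm) x

end Abstract

/-! ### Diamond systems -/

section Diamond

variable (L : Type*) [Field L] [Algebra ℚ L] (F₀ : IntermediateField ℚ (LaurentSeries ℚ))
  (G : Type*) [Group G]

/-- A group acting on `F₀_L` by `L`-algebra automorphisms commuting with the coefficientwise
Galois action. -/
structure DiamondSys where
  /-- the action on functions -/
  act : G →* (laurentBaseChange L F₀ ≃ₐ[L] laurentBaseChange L F₀)
  galois_comm : ∀ (g : G) (σ : L ≃ₐ[ℚ] L) (u : laurentBaseChange L F₀),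
    arithmeticGalois F₀ σ • act g u = act g (arithmeticGalois F₀ σ • u)

namespace DiamondSys

variable {L F₀ G} (D : DiamondSys L F₀ G)

/-- The diamond operators on `Pic⁰ (F₀_L)`. -/
def pic : G →* AddMonoid.End (Pic0 L (laurentBaseChange L F₀)) :=
  picAutHom.comp D.act

theorem pic_apply (g : G) (x : Pic0 L (laurentBaseChange L F₀)) :
    D.pic g x = picAut (D.act g) x := rfl

/-- The diamond operators commute with each other when `G` is commutative. -/
theorem pic_comm {G : Type*} [CommGroup G] (D : DiamondSys L F₀ G) (g h : G)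
    (x : Pic0 L (laurentBaseChange L F₀)) : D.pic g (D.pic h x) = D.pic h (D.pic g x) := by
  have e : D.pic g * D.pic h = D.pic h * D.pic g := by
    rw [← map_mul, ← map_mul, mul_comm]
  exact DFunLike.congr_fun e x

/-- The diamond operators commute with the Galois action. -/
theorem galois_pic_comm (σ : L ≃ₐ[ℚ] L) (g : G) (x : Pic0 L (laurentBaseChange L F₀)) :
    σ • D.pic g x = D.pic g (σ • x) := by
  rw [galois_smul_pic0_def, galois_smul_pic0_def, pic_apply, pic_apply]
  exact smul_picAut_comm (arithmeticGalois F₀ σ) (D.act g) (D.galois_comm g σ) x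

/-- The Kummer representative of `⟨g⟩ x` is `⟨g⟩ u`. -/
theorem isKummerRep_pic {m : ℕ} {x : Pic0 L (laurentBaseChange L F₀)}
    {u : laurentBaseChange L F₀} (h : IsKummerRep m x u) (g : G) :
    IsKummerRep m (D.pic g x) (D.act g u) :=
  isKummerRep_picAut h (D.act g)

/-- Torsion is preserved. -/
theorem pic_mem_torsion (g : G) {n : ℕ} {x : Pic0 L (laurentBaseChange L F₀)}
    (hx : (n : ℤ) • x = 0) : (n : ℤ) • D.pic g x = 0 := by
  rw [← map_zsmul, hx, map_zero]

variable {F₁ : IntermediateField ℚ (LaurentSeries ℚ)} {p : ℕ} [NeZero p]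
  {hle : F₀ ≤ F₁} {hq : ∀ y ∈ F₀, qExpand ℚ p y ∈ F₁}

/-- The diamond operators commute with the Hecke correspondence `T = α_* β^*`, given a compatible
system of automorphisms of the level-`p` field. -/
theorem pic_heckeG_comm (D' : DiamondSys L F₁ G)
    (hα : ∀ (g : G) (u : laurentBaseChange L F₀),
      alphaG L hle (D.act g u) = D'.act g (alphaG L hle u))
    (hβ : ∀ (g : G) (u : laurentBaseChange L F₀),
      betaG L p hq (D.act g u) = D'.act g (betaG L p hq u))
    (I : FFInputs (betaG L p hq) (alphaG L hle)) (g : G)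
    (x : Pic0 L (laurentBaseChange L F₀)) :
    D.pic g (heckeG I x) = heckeG I (D.pic g x) :=
  picAut_corrOf I (D.act g) (D'.act g) (hβ g) (hα g) x

end DiamondSys

end Diamond

end Fermat.Agent.S48x.HeckeFF
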