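import Fermat.Agent.S48x.HeckeFF.Diamond

/-!
# P-S48 (Deligne-Serre), G1 layer (b2): twisting a correspondence by an automorphism

Two normalisations of the Hecke correspondence on `Pic⁰` of the function field of `X₁(M)` are in
use: the NAIVE one `T = α_* β^*` with `β = V_p` (`u(q) ↦ u(q^p)`; `Pair.heckeG`, consumed by the
Kummer-level Eichler-Shimura relation `δ σ² - T σ + p = 0`, `δ = ⟨p⟩⁻¹`) and the STANDARD one
`T_p = α_* (β ∘ δ⁻¹)^*` (consumed by the `θ`-compatibility `θ (T_p x) = heckeChar1 (θ x)`).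
On torsion they differ by the diamond operator:

* `IsKummerRep.unique` : a class is determined by its Kummer representative;
* `corrOf_comp_algEquiv` : `(ψ_* (φ ∘ δ)^*) x = (ψ_* φ^*) (δ x)` on torsion classes;
* `quadratic_standard_of_naive` : `δ σ² x - T (σ x) + p x = 0` for the naive `T = T' ∘ δ` implies
  `σ² x - T' (σ x) + p δ⁻¹ x = 0` for the standard Hecke operator `T'` (commuting with `δ`).
-/

set_option autoImplicit false
set_option linter.unusedSectionVars false
set_option linter.style.haveILetI false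

noncomputable section

open AlgebraicCurve

namespace Fermat.Agent.S48x.HeckeFF

open Fermat.Agent.Gateway.Kummer

section Unique

variable {K F : Type*} [Field K] [Field F] [Algebra K F]

/-- A class is determined by a Kummer representative. -/
theorem IsKummerRep.unique {m : ℕ} (hm : m ≠ 0) {x y : Pic0 K F} {u : F}
    (hx : IsKummerRep m x u) (hy : IsKummerRep m y u) : x = y := by
  have h := hx.div hy
  have h0 : x - y = 0 :=
    h.eq_zero_of_eq_pow hm (w := 1) (by rw [div_self hx.ne_zero, one_pow])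
  exact sub_eq_zero.mp h0

end Unique

section Twist

variable {K F F' : Type*} [Field K] [Field F] [Field F'] [Algebra K F] [Algebra K F']
variable {φ ψ : F →ₐ[K] F'}

/-- **Twisting the pull-back by an automorphism** `δ` of the lower field:
`ψ_* (φ ∘ δ)^* = (ψ_* φ^*) ∘ δ` on torsion classes. -/
theorem corrOf_comp_algEquiv (I : FFInputs φ ψ) (δ : F ≃ₐ[K] F)
    (I' : FFInputs (φ.comp (δ : F →ₐ[K] F)) ψ) {m : ℕ} (hm : m ≠ 0) {x : Pic0 K F}
    (hx : (m : ℤ) • x = 0) : corrOf I' x = corrOf I (picAut δ x) := by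
  obtain ⟨u, hu⟩ := exists_isKummerRep hx
  haveI := I.pd'
  have h1 : IsKummerRep m (corrOf I' x) (normAlong ψ ((φ.comp (δ : F →ₐ[K] F)) u)) :=
    hu.correspondence (φ.comp (δ : F →ₐ[K] F)) ψ I'.intφ I'.intψ I'.fiφ I'.finψ I'.nfψ
  have h2 : IsKummerRep m (corrOf I (picAut δ x)) (normAlong ψ (φ (δ u))) :=
    (isKummerRep_picAut hu δ).correspondence φ ψ I.intφ I.intψ I.fiφ I.finψ I.nfψ
  exact IsKummerRep.unique hm h1 h2

end Twist

section Quadratic

variable {X : Type*} [AddCommGroup X]

/-- From the Eichler-Shimura relation for the naive Hecke operator `T = T' ∘ δ`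
(`δ σ² - T σ + p = 0`) to the standard shape `σ² - T' σ + p δ⁻¹ = 0`. -/
theorem quadratic_standard_of_naive (σ T T' d dinv : X →+ X) (p : ℕ)
    (hinv : ∀ x, dinv (d x) = x) (hT : ∀ x, T x = T' (d x))
    (hdT' : ∀ x, dinv (T' (d x)) = T' x)
    (h : ∀ x, d (σ (σ x)) - T (σ x) + p • x = 0) (x : X) :
    σ (σ x) - T' (σ x) + p • dinv x = 0 := by
  have h1 := congrArg dinv (h x)
  rw [map_add, map_sub, map_zero, hinv, map_nsmul, hT, hdT'] at h1
  exact h1

end Quadratic

end Fermat.Agent.S48x.HeckeFF
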