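import Fermat.Agent.S48x.HeckeFF.Twist

/-!
# P-S48 (Deligne-Serre), G1 layer (b2): the STANDARD Hecke correspondence `T_p`

Setting of `Pair.lean`: `F₀ ≤ F₁ ⊆ ℚ((q))`, `α = alphaG` (inclusion), `β = betaG` (`V_p`), and
`δ : F₀_L ≃ₐ[L] F₀_L` an automorphism commuting with the coefficientwise Galois action (for
`F₀ = gamma1Field M`: `δ = ⟨p⟩⁻¹`, the diamond automorphism `b ↦ p⁻¹ b` on `ratio1`, characterised by
`emb (δ u) = σ • emb u`, `σ ∈ Γ₀(M)` with lower right entry `p`).

* `betaStd δ = β ∘ δ⁻¹` (`= V_p ∘ ⟨p⟩`), `heckeStd J = α_* (β ∘ δ⁻¹)^*` : the standard `T_p`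
  (the one with `θ (T_p x) = heckeChar1 (θ x)`, `HeckeFF/Theta.lean`);
* `galois_heckeStd_comm` : `T_p` commutes with the Galois action;
* `heckeStd_eq` : `T_p x = T (δ⁻¹ x)` on torsion, `T = heckeG I` the naive correspondence;
* `quadratic_heckeStd` : from the Kummer-level Eichler-Shimura relation for the naive
  correspondence, `δ σ² y - T (σ y) + p y = 0` on `m`-torsion, the standard shape
  `σ² x - T_p (σ x) + p ⟨p⟩ x = 0`, `⟨p⟩ = picAut δ⁻¹` (the shape of `JSide1.eichlerShimura` with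
  `diamInv = false`).  Only the commutation of `δ` with `σ` is used (no diamond on the level-`p`
  field is needed).
-/

set_option autoImplicit false
set_option linter.unusedSectionVars false
set_option linter.style.haveILetI false

noncomputable section

open ModularCurve AlgebraicCurve IntermediateField

namespace Fermat.Agent.S48x.HeckeFF

open Fermat.Agent.Gateway.Hecke Fermat.Agent.Gateway.Kummer

variable {L : Type*} [Field L] [Algebra ℚ L]
variable {F₀ F₁ : IntermediateField ℚ (LaurentSeries ℚ)} {p : ℕ} [NeZero p]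
variable (hle : F₀ ≤ F₁) (hq : ∀ y ∈ F₀, qExpand ℚ p y ∈ F₁)
variable (δ : laurentBaseChange L F₀ ≃ₐ[L] laurentBaseChange L F₀)

/-- The standard degeneracy map `V_p ∘ δ⁻¹ : F₀_L → F₁_L`. -/
def betaStd : laurentBaseChange L F₀ →ₐ[L] laurentBaseChange L F₁ :=
  (betaG L p hq).comp (δ.symm : laurentBaseChange L F₀ →ₐ[L] laurentBaseChange L F₀)

theorem betaStd_apply (u : laurentBaseChange L F₀) :
    betaStd hq δ u = betaG L p hq (δ.symm u) := rfl

/-- `δ⁻¹` commutes with the Galois action if `δ` does. -/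
theorem galois_symm_comm {σ : L ≃ₐ[ℚ] L}
    (hδσ : ∀ u, arithmeticGalois F₀ σ • δ u = δ (arithmeticGalois F₀ σ • u))
    (u : laurentBaseChange L F₀) :
    arithmeticGalois F₀ σ • δ.symm u = δ.symm (arithmeticGalois F₀ σ • u) := by
  apply δ.injective
  rw [← hδσ, δ.apply_symm_apply, δ.apply_symm_apply]

/-- The standard degeneracy map intertwines the Galois actions. -/
theorem intertwines_betaStd {σ : L ≃ₐ[ℚ] L}
    (hδσ : ∀ u, arithmeticGalois F₀ σ • δ u = δ (arithmeticGalois F₀ σ • u)) :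
    Intertwines (betaStd hq δ) (arithmeticGalois F₀ σ) (arithmeticGalois F₁ σ) := fun u => by
  rw [betaStd_apply, betaStd_apply, intertwines_betaG L p hq σ (δ.symm u),
    galois_symm_comm δ hδσ]

variable {hle hq δ}

/-- **The standard Hecke correspondence** `T_p = α_* (V_p ∘ δ⁻¹)^*` on `Pic⁰ (F₀_L)`. -/
def heckeStd (J : FFInputs (betaStd hq δ) (alphaG L hle)) :
    Pic0 L (laurentBaseChange L F₀) →+ Pic0 L (laurentBaseChange L F₀) :=
  corrOf J

/-- `T_p` commutes with the Galois action. -/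
theorem galois_heckeStd_comm (J : FFInputs (betaStd hq δ) (alphaG L hle)) (σ : L ≃ₐ[ℚ] L)
    (hδσ : ∀ u, arithmeticGalois F₀ σ • δ u = δ (arithmeticGalois F₀ σ • u))
    (x : Pic0 L (laurentBaseChange L F₀)) :
    σ • heckeStd J x = heckeStd J (σ • x) := by
  rw [galois_smul_pic0_def, galois_smul_pic0_def]
  exact smul_corrOf J (intertwines_betaStd hq δ hδσ) (intertwines_alphaG L hle σ) x

/-- `T_p x = T (δ⁻¹ x)` on torsion classes, `T` the naive correspondence. -/
theorem heckeStd_eq (I : FFInputs (betaG L p hq) (alphaG L hle))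
    (J : FFInputs (betaStd hq δ) (alphaG L hle)) {m : ℕ} (hm : m ≠ 0)
    {x : Pic0 L (laurentBaseChange L F₀)} (hx : (m : ℤ) • x = 0) :
    heckeStd J x = heckeG I (picAut δ.symm x) :=
  corrOf_comp_algEquiv I δ.symm J hm hx

/-- `⟨p⟩ = picAut δ⁻¹` commutes with the Galois action. -/
theorem galois_picAut_symm_comm (σ : L ≃ₐ[ℚ] L)
    (hδσ : ∀ u, arithmeticGalois F₀ σ • δ u = δ (arithmeticGalois F₀ σ • u))
    (x : Pic0 L (laurentBaseChange L F₀)) :
    σ • picAut δ.symm x = picAut δ.symm (σ • x) := by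
  rw [galois_smul_pic0_def, galois_smul_pic0_def]
  exact smul_picAut_comm (arithmeticGalois F₀ σ) δ.symm (galois_symm_comm δ hδσ) x

theorem picAut_picAut_symm (x : Pic0 L (laurentBaseChange L F₀)) :
    picAut δ (picAut δ.symm x) = x := by
  rw [← picAut_mul_apply]
  have : δ * δ.symm = 1 := AlgEquiv.ext fun u => δ.apply_symm_apply u
  rw [this, picAut_one_apply]

/-- **Eichler-Shimura in standard shape.**  If `δ σ² y - T (σ y) + p y = 0` for all `m`-torsion
classes `y` (`T` naive), then `σ² x - T_p (σ x) + p ⟨p⟩ x = 0` with `⟨p⟩ = picAut δ⁻¹`. -/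
theorem quadratic_heckeStd (I : FFInputs (betaG L p hq) (alphaG L hle))
    (J : FFInputs (betaStd hq δ) (alphaG L hle)) (σ : L ≃ₐ[ℚ] L)
    (hδσ : ∀ u, arithmeticGalois F₀ σ • δ u = δ (arithmeticGalois F₀ σ • u))
    {m : ℕ} (hm : m ≠ 0)
    (hES : ∀ y : Pic0 L (laurentBaseChange L F₀), (m : ℤ) • y = 0 →
      picAut δ (σ • σ • y) - heckeG I (σ • y) + p • y = 0)
    {x : Pic0 L (laurentBaseChange L F₀)} (hx : (m : ℤ) • x = 0) :
    σ • σ • x - heckeStd J (σ • x) + p • picAut δ.symm x = 0 := by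
  have hy : (m : ℤ) • picAut δ.symm x = 0 := by rw [← map_zsmul, hx, map_zero]
  have hσx : (m : ℤ) • (σ • x) = 0 := by
    rw [galois_smul_pic0_def, ← SemilinearAut.smul_zsmul, hx]
    exact smul_zero (A := Pic0 L (laurentBaseChange L F₀)) (arithmeticGalois F₀ σ)
  have h := hES _ hy
  rw [galois_picAut_symm_comm σ hδσ, galois_picAut_symm_comm σ hδσ, picAut_picAut_symm,
    ← heckeStd_eq I J hm hσx] at h
  exact h

end Fermat.Agent.S48x.HeckeFF
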