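import Fermat.Agent.S48x.HeckeFF.Pair
import Fermat.Agent.Gateway.BaseChange.Square
import Fermat.Agent.Gateway.BaseChange.Concrete
import Fermat.Agent.S27x.G3.Main

/-!
# P-S48 (Deligne-Serre), G1 layer (b2), slice (B6): base change of constants (helper86)

`K ⊆ L` algebraically closed fields of characteristic zero (`K = ℚ̄`, `L = ℂ`), `F` a rational
model field (`F = gamma1Field M`), `F_K := laurentBaseChange K F`.

* abstract: base change along any `Setup K L F0 F1` commutes with every pair of semilinear
  automorphisms intertwined by `ι` (diamond operators);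
* `bcG : Pic⁰ (F_K) →+ Pic⁰ (F_L)`, injective, commutes with the Hecke correspondence `heckeG` of
  `HeckeFF/Pair.lean` and with diamonds;
* `torsionEquivG : Pic⁰ (F_K)[n] ≃+ Pic⁰ (F_L)[n]` (if the right hand side is finite), Hecke and
  diamond equivariant.

Everything is generic in the rational model fields.
-/

set_option autoImplicit false
set_option linter.unusedSectionVars false
set_option linter.style.haveILetI false

noncomputable section

open ModularCurve AlgebraicCurve IntermediateField

namespace Fermat.Agent.S48x.HeckeFF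

open Fermat.Agent.Gateway.BaseChange Fermat.Agent.S24

/-! ### Abstract: base change and intertwined automorphisms -/

section Abstract

variable {K L F0 F1 : Type*} [Field K] [Field L] [Field F0] [Field F1]
  [Algebra K L] [Algebra K F0] [Algebra L F1] (S : Setup K L F0 F1)
  (hK : ∀ v : Place K F0, Function.Surjective (algebraMap K v.ResidueField))
  (g0 : SemilinearAut K F0) (g1 : SemilinearAut L F1)
  (hg : ∀ f : F0, g1 • S.ι f = S.ι (g0 • f))

include hg in
/-- A pair of automorphisms intertwined by `ι` is compatible with extension of places. -/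
theorem smul_extPlace_of_intertwines (v : Place K F0) :
    g1 • S.extPlace hK v = S.extPlace hK (g0 • v) := by
  apply S.eq_extPlace_of_ord hK
  intro f
  have hf : f = g0 • (g0⁻¹ • f) := (smul_inv_smul g0 f).symm
  rw [hf, ← hg, SemilinearAut.ord_smul, SemilinearAut.ord_smul, Setup.extPlace_ord]

include hg in
theorem smul_bc_of_intertwines (D : Divisor K F0) :
    g1 • S.bc hK D = S.bc hK (g0 • D) := by
  induction D using Finsupp.induction with
  | zero => simp
  | single_add v n D _ _ ih =>
    rw [map_add, smul_add, ih, smul_add, map_add, Setup.bc_single, SemilinearAut.smul_single,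
      SemilinearAut.smul_single, Setup.bc_single, smul_extPlace_of_intertwines S hK g0 g1 hg]

include hg in
/-- Base change on `Pic⁰` commutes with a pair of automorphisms intertwined by `ι`. -/
theorem smul_bcPic0_of_intertwines (x : Pic0 K F0) :
    g1 • S.bcPic0 hK x = S.bcPic0 hK (g0 • x) := by
  obtain ⟨D, rfl⟩ := Pic0.mk_surjective x
  rw [Setup.bcPic0_mk, SemilinearAut.pic0_smul_mk, SemilinearAut.pic0_smul_mk, Setup.bcPic0_mk]
  congr 1
  apply Subtype.ext
  rw [SemilinearAut.coe_degZeroSMulHom, Setup.coe_bcDegZero, Setup.coe_bcDegZero,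
    SemilinearAut.coe_degZeroSMulHom]
  exact smul_bc_of_intertwines S hK g0 g1 hg _

end Abstract

/-! ### The concrete base change of a rational model field -/

section Concrete

variable (K L : Type*) [Field K] [Field L] [Algebra K L] [Algebra ℚ K] [Algebra ℚ L]
  [IsScalarTower ℚ K L]

/-- The base change setup `F_K → F_L` of a rational model field. -/
def setupG (F : IntermediateField ℚ (LaurentSeries ℚ)) :
    Setup K L (laurentBaseChange K F) (laurentBaseChange L F) :=
  (isBC_laurentBaseChange K L F).toSetup

theorem coe_setupG_ι (F : IntermediateField ℚ (LaurentSeries ℚ)) (f : laurentBaseChange K F) :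
    (((setupG K L F).ι f : laurentBaseChange L F) : LaurentSeries L)
      = iota K L (f : LaurentSeries K) := rfl

variable {F₀ F₁ : IntermediateField ℚ (LaurentSeries ℚ)}

theorem setupG_alphaG (hle : F₀ ≤ F₁) (f : laurentBaseChange K F₀) :
    alphaG L hle ((setupG K L F₀).ι f) = (setupG K L F₁).ι (alphaG K hle f) := by
  apply Subtype.ext
  rw [coe_alphaG, coe_setupG_ι, coe_setupG_ι, coe_alphaG]

theorem setupG_betaG (p : ℕ) [NeZero p] (hq : ∀ y ∈ F₀, qExpand ℚ p y ∈ F₁)
    (f : laurentBaseChange K F₀) :
    betaG L p hq ((setupG K L F₀).ι f) = (setupG K L F₁).ι (betaG K p hq f) := by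
  apply Subtype.ext
  rw [coe_betaG, coe_setupG_ι, coe_setupG_ι, coe_betaG]
  exact (ModularCurve.coeffMap_qExpand (algebraMap K L) p _).symm

/-- Base change `Pic⁰ (F_K) → Pic⁰ (F_L)`. -/
def bcG (F : IntermediateField ℚ (LaurentSeries ℚ))
    (hK : ∀ v : Place K (laurentBaseChange K F),
      Function.Surjective (algebraMap K v.ResidueField)) :
    Pic0 K (laurentBaseChange K F) →+ Pic0 L (laurentBaseChange L F) :=
  (setupG K L F).bcPic0 hK

variable {K L}

/-- Base change commutes with a pair of semilinear automorphisms intertwined by `ι`. -/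
theorem bcG_smul {F : IntermediateField ℚ (LaurentSeries ℚ)}
    (hK : ∀ v : Place K (laurentBaseChange K F),
      Function.Surjective (algebraMap K v.ResidueField))
    (g0 : SemilinearAut K (laurentBaseChange K F)) (g1 : SemilinearAut L (laurentBaseChange L F))
    (hg : ∀ f, g1 • (setupG K L F).ι f = (setupG K L F).ι (g0 • f))
    (x : Pic0 K (laurentBaseChange K F)) :
    g1 • bcG K L F hK x = bcG K L F hK (g0 • x) :=
  smul_bcPic0_of_intertwines (setupG K L F) hK g0 g1 hg x

/-- Base change commutes with a pair of automorphisms (diamond operators) compatible with `ι`. -/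
theorem bcG_ofAlgAut {F : IntermediateField ℚ (LaurentSeries ℚ)}
    (hK : ∀ v : Place K (laurentBaseChange K F),
      Function.Surjective (algebraMap K v.ResidueField))
    (δK : laurentBaseChange K F ≃ₐ[K] laurentBaseChange K F)
    (δL : laurentBaseChange L F ≃ₐ[L] laurentBaseChange L F)
    (hδ : ∀ f, δL ((setupG K L F).ι f) = (setupG K L F).ι (δK f))
    (x : Pic0 K (laurentBaseChange K F)) :
    SemilinearAut.ofAlgAut δL • bcG K L F hK x
      = bcG K L F hK (SemilinearAut.ofAlgAut δK • x) :=
  bcG_smul hK _ _ (fun f => by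
    rw [SemilinearAut.ofAlgAut_smul, SemilinearAut.ofAlgAut_smul]; exact hδ f) x

/-- **Base change commutes with the Hecke correspondence.** -/
theorem bcG_heckeG {p : ℕ} [NeZero p] {hle : F₀ ≤ F₁} {hq : ∀ y ∈ F₀, qExpand ℚ p y ∈ F₁}
    (hK : ∀ v : Place K (laurentBaseChange K F₀),
      Function.Surjective (algebraMap K v.ResidueField))
    (hK' : ∀ v : Place K (laurentBaseChange K F₁),
      Function.Surjective (algebraMap K v.ResidueField))
    (IK : FFInputs (betaG K p hq) (alphaG K hle)) (IL : FFInputs (betaG L p hq) (alphaG L hle))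
    (x : Pic0 K (laurentBaseChange K F₀)) :
    bcG K L F₀ hK (heckeG IK x) = heckeG IL (bcG K L F₀ hK x) := by
  haveI := IK.pd'
  haveI := IL.pd'
  exact Setup.bcPic0_correspondence (setupG K L F₀) (setupG K L F₁) hK hK'
    (betaG K p hq) (betaG L p hq) IK.intφ IL.intφ (setupG_betaG K L p hq)
    (alphaG K hle) (alphaG L hle) IK.intψ IL.intψ (setupG_alphaG K L hle)
    IK.fiφ IK.finψ IK.nfψ IL.fiφ IL.finψ IL.nfψ x

end Concrete

/-! ### Torsion -/

section Torsion

variable {K L : Type*} [Field K] [Field L] [Algebra K L] [Algebra ℚ K] [Algebra ℚ L]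
  [IsScalarTower ℚ K L] [IsAlgClosed K] [IsAlgClosed L] [CharZero K]
variable {F : IntermediateField ℚ (LaurentSeries ℚ)}
  {t : laurentBaseChange K F} (ht : Transcendental K t)
  [FiniteDimensional K⟮t⟯ (laurentBaseChange K F)]

/-- Base change is injective on `Pic⁰`. -/
theorem bcG_injective :
    Function.Injective (bcG K L F (PD.residue_surjective ht)) :=
  Fermat.Agent.S27x.G3.bcPic0_injective_cz (setupG K L F) ht

/-- **Base change is an isomorphism on `n`-torsion** when the torsion over `L` is finite. -/
def torsionEquivG (n : ℕ) [Finite (Pic0.torsion L (laurentBaseChange L F) n)] :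
    Pic0.torsion K (laurentBaseChange K F) n ≃+ Pic0.torsion L (laurentBaseChange L F) n :=
  Fermat.Agent.S27x.G3.torsionEquiv_cz (setupG K L F) ht n

theorem coe_torsionEquivG (n : ℕ) [Finite (Pic0.torsion L (laurentBaseChange L F) n)]
    (y : Pic0.torsion K (laurentBaseChange K F) n) :
    (torsionEquivG (L := L) ht n y : Pic0 L (laurentBaseChange L F))
      = bcG K L F (PD.residue_surjective ht) (y : Pic0 K (laurentBaseChange K F)) := rfl

include ht in
theorem card_torsionG_eq (n : ℕ) [Finite (Pic0.torsion L (laurentBaseChange L F) n)] :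
    Nat.card (Pic0.torsion K (laurentBaseChange K F) n)
      = Nat.card (Pic0.torsion L (laurentBaseChange L F) n) :=
  Nat.card_congr (torsionEquivG (L := L) ht n).toEquiv

/-- The torsion isomorphism is equivariant for automorphisms intertwined by `ι`. -/
theorem torsionEquivG_smul (n : ℕ) [Finite (Pic0.torsion L (laurentBaseChange L F) n)]
    (g0 : SemilinearAut K (laurentBaseChange K F)) (g1 : SemilinearAut L (laurentBaseChange L F))
    (hg : ∀ f, g1 • (setupG K L F).ι f = (setupG K L F).ι (g0 • f))
    (y : Pic0.torsion K (laurentBaseChange K F) n) :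
    torsionEquivG (L := L) ht n (g0 • y) = g1 • torsionEquivG (L := L) ht n y := by
  apply Subtype.ext
  rw [coe_torsionEquivG, SemilinearAut.coe_torsion_smul, SemilinearAut.coe_torsion_smul,
    coe_torsionEquivG, bcG_smul _ g0 g1 hg]

end Torsion

/-! ### Hecke operators on torsion -/

section HeckeTorsion

variable {L : Type*} [Field L] [Algebra ℚ L]
variable {F₀ F₁ : IntermediateField ℚ (LaurentSeries ℚ)} {p : ℕ} [NeZero p]
  {hle : F₀ ≤ F₁} {hq : ∀ y ∈ F₀, qExpand ℚ p y ∈ F₁}

theorem heckeG_mem_torsion (I : FFInputs (betaG L p hq) (alphaG L hle)) {n : ℕ}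
    {x : Pic0 L (laurentBaseChange L F₀)} (hx : x ∈ Pic0.torsion L (laurentBaseChange L F₀) n) :
    heckeG I x ∈ Pic0.torsion L (laurentBaseChange L F₀) n := by
  rw [Pic0.mem_torsion] at hx ⊢
  rw [← map_zsmul, hx, map_zero]

/-- The Hecke correspondence on `n`-torsion. -/
def heckeTorsionG (I : FFInputs (betaG L p hq) (alphaG L hle)) (n : ℕ) :
    Pic0.torsion L (laurentBaseChange L F₀) n →+ Pic0.torsion L (laurentBaseChange L F₀) n :=
  ((heckeG I).domRestrict (Pic0.torsion L (laurentBaseChange L F₀) n)).codRestrict _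
    (fun x => heckeG_mem_torsion I x.2)

@[simp]
theorem coe_heckeTorsionG (I : FFInputs (betaG L p hq) (alphaG L hle)) (n : ℕ)
    (x : Pic0.torsion L (laurentBaseChange L F₀) n) :
    (heckeTorsionG I n x : Pic0 L (laurentBaseChange L F₀))
      = heckeG I (x : Pic0 L (laurentBaseChange L F₀)) := rfl

end HeckeTorsion

section HeckeTorsionBC

variable {K L : Type*} [Field K] [Field L] [Algebra K L] [Algebra ℚ K] [Algebra ℚ L]
  [IsScalarTower ℚ K L] [IsAlgClosed K] [IsAlgClosed L] [CharZero K]
variable {F₀ F₁ : IntermediateField ℚ (LaurentSeries ℚ)} {p : ℕ} [NeZero p]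
  {hle : F₀ ≤ F₁} {hq : ∀ y ∈ F₀, qExpand ℚ p y ∈ F₁}
  {t : laurentBaseChange K F₀} (ht : Transcendental K t)
  [FiniteDimensional K⟮t⟯ (laurentBaseChange K F₀)]

/-- The torsion isomorphism is Hecke equivariant. -/
theorem torsionEquivG_heckeTorsionG
    (hK' : ∀ v : Place K (laurentBaseChange K F₁),
      Function.Surjective (algebraMap K v.ResidueField))
    (IK : FFInputs (betaG K p hq) (alphaG K hle)) (IL : FFInputs (betaG L p hq) (alphaG L hle))
    (n : ℕ) [Finite (Pic0.torsion L (laurentBaseChange L F₀) n)]
    (y : Pic0.torsion K (laurentBaseChange K F₀) n) :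
    torsionEquivG (L := L) ht n (heckeTorsionG IK n y)
      = heckeTorsionG IL n (torsionEquivG (L := L) ht n y) := by
  apply Subtype.ext
  rw [coe_torsionEquivG, coe_heckeTorsionG, coe_heckeTorsionG, coe_torsionEquivG,
    bcG_heckeG _ hK' IK IL]

end HeckeTorsionBC

end Fermat.Agent.S48x.HeckeFF
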