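import Fermat.Agent.Gateway.Dict.NormProd
import Fermat.Agent.S48x.HeckeFF.Theta

/-!
# P-S48, G1 layer (b2): D5 glue for `±Γ₁(M)` (helper35)

* `heckeProd1_eq` : the Hecke product of `G1/Theta/HeckeCore1` in explicit form,
  `heckeProd1 t h = ((diagGL p)⁻¹ • (σ⁻¹ • h)) * ∏_{b<p} (upperGL p b)⁻¹ • h` (`σ = t.σ`);
* `normProdFormula1_of_explicit` : the explicit analytic norm formula
  `emb (Norm_α (β u)) = (diagGL p)⁻¹ • emb u * ∏_b (upperGL p b)⁻¹ • (σ • emb u)` together with a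
  diamond automorphism `δ` (`emb (δ u) = σ • emb u`) gives `ThetaEq.NormProdFormula1 t I J` for the
  pair `(β ∘ δ⁻¹, α)`, i.e. for the standard `T_p = α_* (β ∘ ⟨p⟩)^*`.
-/

set_option autoImplicit false
set_option linter.unusedSectionVars false
set_option linter.style.haveILetI false

open UpperHalfPlane CongruenceSubgroup Matrix.SpecialLinearGroup
open scoped MatrixGroups OnePoint
open AlgebraicCurve

namespace Fermat.Agent.S48x.HeckeFF

open Fermat.Agent.S24 Fermat.Agent.S24.MerFun Fermat.Agent.S24.JLevel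
open Fermat.Agent.Gateway.Root Fermat.Agent.Gateway.Kummer
open Fermat.Agent.Gateway.HeckeCoh Fermat.Agent.Gateway.ThetaHecke
open Fermat.Agent.Gateway.Dict.NormQExpAux Fermat.Agent.Gateway.Dict.NormProd
open Fermat.Agent.S27x.Theta Fermat.Agent.S48x.G1 Fermat.Agent.S48x.HeckeFF.ThetaEq
open Fermat.Agent.S48x.Nebentypus (sRep)

section Explicit

variable {M p : ℕ} [NeZero M] [NeZero p] [Fact p.Prime] (t : Twist M p)

theorem rep1Pos_infty : rep1Pos t ∞ = HolFun.slToGLPos t.σ * diagGL p := by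
  rw [rep1Pos, heckeRepPos_infty]
  rfl

theorem rep1Pos_coe (j : ZMod p) :
    rep1Pos t (j : OnePoint (ZMod p)) = upperGL p ((j.val : ℕ) : ℝ) := by
  rw [rep1Pos, heckeRepPos_coe]
  have h1 : sRep p t.σ (j : OnePoint (ZMod p)) = 1 := rfl
  rw [h1, map_one, one_mul]

/-- **The Hecke product of `±Γ₁(M)` in explicit form.** -/
theorem heckeProd1_eq (h : MerFun) :
    heckeProd1 t h = ((diagGL p)⁻¹ • ((t.σ)⁻¹ • h)) *
      ∏ b ∈ Finset.range p, (upperGL p (b : ℝ))⁻¹ • h := by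
  rw [heckeProd1, ← prod_zmod_val p (fun b : ℕ => (upperGL p (b : ℝ))⁻¹ • h)]
  have h1 : ∏ x : OnePoint (ZMod p), (rep1Pos t x)⁻¹ • h =
      ((rep1Pos t ∞)⁻¹ • h) * ∏ j : ZMod p, (rep1Pos t (j : OnePoint (ZMod p)))⁻¹ • h :=
    Fintype.prod_option (fun x : OnePoint (ZMod p) => (rep1Pos t x)⁻¹ • h)
  rw [h1, rep1Pos_infty, mul_inv_rev, mul_smul, ← map_inv, ← sl_smul_eq]
  congr 1
  exact Finset.prod_congr rfl fun j _ => by rw [rep1Pos_coe]

end Explicit

section Glue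

variable {M p : ℕ} [NeZero M] [NeZero p] [Fact p.Prime] (t : Twist M p)
variable {N : ℕ} {F F' : Type*} [Field F] [Field F'] [Algebra ℂ F] [Algebra ℂ F']
  (I : DictInputG (Gamma1pm M) N F)

/-- **D5 glue.**  From the explicit analytic norm formula for `(β, α)` and a diamond automorphism
`δ` of `F` acting through `σ = t.σ` on `MerFun`, the norm-product formula for the pair
`(β ∘ δ⁻¹, α)` in the shape consumed by `ThetaEq.thetaFun_corrOf`. -/
theorem normProdFormula1_of_explicit (α β : F →ₐ[ℂ] F') (δ : F ≃ₐ[ℂ] F)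
    (hδ : ∀ u : F, I.emb (δ u) = t.σ • I.emb u)
    (J : FFInputs (β.comp (δ.symm : F →ₐ[ℂ] F)) α)
    (hexp : haveI := J.pd'
      ∀ u : F, I.emb (normAlong α (β u)) =
        ((diagGL p)⁻¹ • I.emb u) *
          ∏ b ∈ Finset.range p, (upperGL p (b : ℝ))⁻¹ • (t.σ • I.emb u)) :
    NormProdFormula1 t I J := by
  haveI := J.pd'
  intro f
  have h1 : I.emb (δ.symm f) = (t.σ)⁻¹ • I.emb f := by
    have h2 := hδ (δ.symm f)
    rw [AlgEquiv.apply_symm_apply] at h2
    rw [h2, inv_smul_smul]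
  have h3 : (β.comp (δ.symm : F →ₐ[ℂ] F)) f = β (δ.symm f) := rfl
  rw [h3, hexp (δ.symm f), heckeProd1_eq, h1, smul_inv_smul]

end Glue

end Fermat.Agent.S48x.HeckeFF
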