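import Fermat.Agent.S48x.HeckeFF.AnaNorm
import Fermat.Agent.S48x.HeckeFF.C1Qbar
import Fermat.Agent.S48x.HeckeFF.Cosets1
import Fermat.Agent.S48x.HeckeFF.Level

/-!
# P-S48 (Deligne-Serre), G1 layer (b2): the degree of `α` is `p + 1` (for `±Γ₁(M)`, `p ∤ M`)

Composition of
* `AnaNorm.finrankAlong_alphaG_eq_relIndex` (degree over `ℂ` `=` index of `G ∩ Γ₀(p)` in `G`,
  from an analytic pair `AnaPair`),
* `Cosets1.card_quot1` (the index is `p + 1` for `G = ±Γ₁(M)`, `p ∤ M` prime),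
* `C1Qbar.finrankAlong_alphaG_baseChange` (the degree does not depend on the constant field).

Output: `finrankAlong K (alphaG K hle) = p + 1` over every field `K ⊆ ℂ` (in particular `K = ℚ̄`),
the hypothesis `hdeg` of `NormQ1.normQExp_hecke` / `Ana/Iota0Norm.normQExp_hecke_levelField`.
-/

set_option autoImplicit false
set_option linter.unusedSectionVars false

noncomputable section

open ModularCurve AlgebraicCurve IntermediateField CongruenceSubgroup
open scoped MatrixGroups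

namespace Fermat.Agent.S48x.HeckeFF

open Fermat.Agent.Gateway.Hecke Fermat.Agent.Gateway.Kummer Fermat.Agent.S48x.G1
open Fermat.Agent.Gateway.Dict.ConjAbs

variable {M p : ℕ}

/-- The index of `±Γ₁(M) ∩ Γ₀(p)` in `±Γ₁(M)` is `p + 1`. -/
theorem relIndex_Gamma0_Gamma1pm (hp : p.Prime) (hpM : ¬ p ∣ M) :
    (Gamma0 p).relIndex (Gamma1pm M) = p + 1 := by
  rw [Subgroup.relIndex, Subgroup.index]
  exact card_quot1 hp hpM

variable {F₀ F₁ : IntermediateField ℚ (LaurentSeries ℚ)} [NeZero p]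
variable {hle : F₀ ≤ F₁} {hq : ∀ y ∈ F₀, qExpand ℚ p y ∈ F₁}
variable {x0 : laurentBaseChange ℂ F₀} {x1 : laurentBaseChange ℂ F₁}
variable {D0 : EmbData ℂ (laurentBaseChange ℂ F₀) (RingHom.id ℂ) x0 (Gamma1pm M)}
  {D1 : EmbData ℂ (laurentBaseChange ℂ F₁) (RingHom.id ℂ) x1 (Gamma1pm M ⊓ Gamma0 p)} {lev : ℕ}

/-- The degree of `α` over `ℂ` is `p + 1`. -/
theorem finrankAlong_alphaG_complex (hp : p.Prime) (hpM : ¬ p ∣ M)
    (h : AnaPair hle hq D0 D1 lev) : finrankAlong ℂ (alphaG ℂ hle) = p + 1 := by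
  rw [finrankAlong_alphaG_eq_relIndex h, relIndex_Gamma0_Gamma1pm hp hpM]

/-- The degree of `α` over any subfield `K ⊆ ℂ` (e.g. `K = ℚ̄`) is `p + 1`. -/
theorem finrankAlong_alphaG_of_anaPair (K : Type*) [Field K] [Algebra ℚ K] [Algebra K ℂ]
    [IsScalarTower ℚ K ℂ] (hp : p.Prime) (hpM : ¬ p ∣ M)
    (h : AnaPair hle hq D0 D1 lev) (hfin : FiniteAlong K (alphaG K hle)) :
    finrankAlong K (alphaG K hle) = p + 1 := by
  rw [← finrankAlong_alphaG_baseChange (K := K) (L := ℂ) hle hfin,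
    finrankAlong_alphaG_complex hp hpM h]

/-- The level-field form: the degree of `alphaL F₀ p K` is `p + 1` (and `alphaL` is finite) over
any algebraically closed `K ⊆ ℂ` of characteristic zero over which `F₀_K` is finite over `K(j)`. -/
theorem finrankAlong_alphaL_of_anaPair {F₀ : IntermediateField ℚ (LaurentSeries ℚ)}
    (K : Type) [Field K] [Algebra ℚ K] [Algebra K ℂ] [IsScalarTower ℚ K ℂ] [IsAlgClosed K]
    [CharZero K] (hp : p.Prime) (hpM : ¬ p ∣ M) (hj : jq ∈ F₀)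
    [FiniteDimensional K⟮jG K hj⟯ (laurentBaseChange K F₀)]
    {x0 : laurentBaseChange ℂ F₀} {x1 : laurentBaseChange ℂ (levelField F₀ p)}
    {D0 : EmbData ℂ (laurentBaseChange ℂ F₀) (RingHom.id ℂ) x0 (Gamma1pm M)}
    {D1 : EmbData ℂ (laurentBaseChange ℂ (levelField F₀ p)) (RingHom.id ℂ) x1
      (Gamma1pm M ⊓ Gamma0 p)} {lev : ℕ}
    (h : AnaPair (le_levelField F₀ p) (qExpand_mem_levelField F₀ p) D0 D1 lev) :
    FiniteAlong K (alphaL F₀ p K) ∧ finrankAlong K (alphaL F₀ p K) = p + 1 :=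
  ⟨(ffInputs_levelField K p hp hj).finψ,
    finrankAlong_alphaG_of_anaPair K hp hpM h (ffInputs_levelField K p hp hj).finψ⟩

end Fermat.Agent.S48x.HeckeFF
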