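import Fermat.Agent.S48x.HeckeFF.BaseChange
import Fermat.Agent.S48x.HeckeFF.C1Qbar
import Fermat.Agent.S48x.HeckeFF.StdHecke
import Fermat.Agent.S48x.Ana.LevelP.QField

/-!
# P-S48 (Deligne-Serre), G1 layer (b2), slice (B6): base change `K → ℂ` and diamond operators

Generic in the rational model field `F₀ ⊆ ℚ((q))` and a subfield `K ⊆ ℂ`.

* `emb_iotaG` : two analytic realisations `embK : F₀_K → MerFun`, `embC : F₀_ℂ → MerFun` with the
  expected `q`-expansions are compatible with the coefficientwise embedding `F₀_K → F₀_ℂ`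
  (the `q`-expansion determines the function).
* `algEquiv_iotaG` : automorphisms `δK` of `F₀_K` and `δC` of `F₀_ℂ` realising the SAME analytic
  operator (`emb (δ f) = g • emb f`) are compatible with `F₀_K → F₀_ℂ`.  For the diamond
  operators of `Ana/Diamond` this is the compatibility of `⟨d⟩` over `ℚ̄` and over `ℂ`.
* `bcG_picAut`, `torsionEquivG_picAut` : base change on `Pic⁰` / on torsion commutes with
  `picAut δ`; `bcG_heckeG_picAut` : with the standard Hecke operator `T_p = T ∘ ⟨p⟩`.
-/

set_option autoImplicit false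
set_option linter.unusedSectionVars false
set_option linter.style.haveILetI false

noncomputable section

open ModularCurve AlgebraicCurve IntermediateField
open scoped MatrixGroups

namespace Fermat.Agent.S48x.HeckeFF

open Fermat.Agent.S24 Fermat.Agent.Gateway.BaseChange Fermat.Agent.Gateway.Hecke
  Fermat.Agent.Gateway.Kummer Fermat.Agent.Gateway.Dict.QExpMer Fermat.Agent.S48x.Ana.LevelP

section Emb

variable {K : Type*} [Field K] [Algebra ℚ K] [Algebra K ℂ] [IsScalarTower ℚ K ℂ]
variable {F₀ : IntermediateField ℚ (LaurentSeries ℚ)}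
variable (embK : laurentBaseChange K F₀ →+* MerFun) (embC : laurentBaseChange ℂ F₀ →+* MerFun)

/-- Analytic realisations over `K` and over `ℂ` with the expected `q`-expansions are compatible
with the coefficientwise embedding. -/
theorem emb_iotaG
    (hQK : ∀ f : laurentBaseChange K F₀,
      HasQ (embK f) (coeffMap (algebraMap K ℂ) (f : LaurentSeries K)))
    (hQC : ∀ f : laurentBaseChange ℂ F₀, HasQ (embC f) (f : LaurentSeries ℂ))
    (f : laurentBaseChange K F₀) : embC (iotaG K ℂ F₀ f) = embK f :=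
  hasQ_eq_of_eq (hQC _) (by rw [coe_iotaG]; exact hQK f)

/-- Automorphisms over `K` and over `ℂ` realising the same analytic operator `g` are compatible
with the coefficientwise embedding `F₀_K → F₀_ℂ`. -/
theorem algEquiv_iotaG
    (hQK : ∀ f : laurentBaseChange K F₀,
      HasQ (embK f) (coeffMap (algebraMap K ℂ) (f : LaurentSeries K)))
    (hQC : ∀ f : laurentBaseChange ℂ F₀, HasQ (embC f) (f : LaurentSeries ℂ))
    (δK : laurentBaseChange K F₀ ≃ₐ[K] laurentBaseChange K F₀)
    (δC : laurentBaseChange ℂ F₀ ≃ₐ[ℂ] laurentBaseChange ℂ F₀) (g : SL(2, ℤ))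
    (hK : ∀ f, embK (δK f) = g • embK f) (hC : ∀ f, embC (δC f) = g • embC f)
    (f : laurentBaseChange K F₀) : δC (iotaG K ℂ F₀ f) = iotaG K ℂ F₀ (δK f) := by
  apply embC.injective
  rw [hC, emb_iotaG embK embC hQK hQC, emb_iotaG embK embC hQK hQC, hK]

end Emb

section Pic

variable {K L : Type*} [Field K] [Field L] [Algebra K L] [Algebra ℚ K] [Algebra ℚ L]
  [IsScalarTower ℚ K L]
variable {F₀ : IntermediateField ℚ (LaurentSeries ℚ)}

/-- Base change on `Pic⁰` commutes with `picAut` of compatible automorphisms. -/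
theorem bcG_picAut
    (hK : ∀ v : Place K (laurentBaseChange K F₀),
      Function.Surjective (algebraMap K v.ResidueField))
    (δK : laurentBaseChange K F₀ ≃ₐ[K] laurentBaseChange K F₀)
    (δL : laurentBaseChange L F₀ ≃ₐ[L] laurentBaseChange L F₀)
    (hδ : ∀ f, δL (iotaG K L F₀ f) = iotaG K L F₀ (δK f))
    (x : Pic0 K (laurentBaseChange K F₀)) :
    bcG K L F₀ hK (picAut δK x) = picAut δL (bcG K L F₀ hK x) :=
  (bcG_ofAlgAut hK δK δL hδ x).symm

/-- Compatibility passes to inverses. -/
theorem iotaG_symm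
    (δK : laurentBaseChange K F₀ ≃ₐ[K] laurentBaseChange K F₀)
    (δL : laurentBaseChange L F₀ ≃ₐ[L] laurentBaseChange L F₀)
    (hδ : ∀ f, δL (iotaG K L F₀ f) = iotaG K L F₀ (δK f))
    (f : laurentBaseChange K F₀) : δL.symm (iotaG K L F₀ f) = iotaG K L F₀ (δK.symm f) := by
  apply δL.injective
  rw [δL.apply_symm_apply, hδ, δK.apply_symm_apply]

variable {F₁ : IntermediateField ℚ (LaurentSeries ℚ)} {p : ℕ} [NeZero p]
  {hle : F₀ ≤ F₁} {hq : ∀ y ∈ F₀, qExpand ℚ p y ∈ F₁}

/-- Base change commutes with the standard Hecke operator `T_p = T ∘ ⟨p⟩`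
(`T = heckeG` naive, `⟨p⟩ = picAut δ⁻¹`). -/
theorem bcG_heckeG_picAut
    (hK : ∀ v : Place K (laurentBaseChange K F₀),
      Function.Surjective (algebraMap K v.ResidueField))
    (hK' : ∀ v : Place K (laurentBaseChange K F₁),
      Function.Surjective (algebraMap K v.ResidueField))
    (IK : FFInputs (betaG K p hq) (alphaG K hle)) (IL : FFInputs (betaG L p hq) (alphaG L hle))
    (δK : laurentBaseChange K F₀ ≃ₐ[K] laurentBaseChange K F₀)
    (δL : laurentBaseChange L F₀ ≃ₐ[L] laurentBaseChange L F₀)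
    (hδ : ∀ f, δL (iotaG K L F₀ f) = iotaG K L F₀ (δK f))
    (x : Pic0 K (laurentBaseChange K F₀)) :
    bcG K L F₀ hK (heckeG IK (picAut δK.symm x))
      = heckeG IL (picAut δL.symm (bcG K L F₀ hK x)) := by
  rw [bcG_heckeG hK hK' IK IL, bcG_picAut hK δK.symm δL.symm (iotaG_symm δK δL hδ)]

end Pic

end Fermat.Agent.S48x.HeckeFF
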